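import Fermat.Agent.Galois.MazurP.Core
import Fermat.Agent.EC.AtP

/-!
# The statements used for the Mazur principle at `p` for curves semistable at `p`

`LocalInputAt` is the local shape of `E[p]`: either some nonzero point is very little ramified, or
an inertia element fixing the `p`-th roots of unity acts as `-1` (supersingular reduction).
`NegTwistExit` treats the second case, `PrincipleAtPOdd` the first for every odd prime.
-/

set_option autoImplicit false

noncomputable section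

namespace FermatLib.MazurP.OddP

open ModularCurve FermatLib.AtP
open scoped WeierstrassCurve.Affine

local notation "Qbar" => AlgebraicClosure ℚ
local notation "Γℚ" => (AlgebraicClosure ℚ ≃ₐ[ℚ] AlgebraicClosure ℚ)

/-- The Mazur principle at `p` on torsion points, for every odd prime `p`. -/
def PrincipleAtPOdd : Prop :=
  ∀ (p M : ℕ), p.Prime → p ≠ 2 → ¬ p ∣ M → 0 < M → ∀ [NeZero (p * M)] (S : Finset ℕ),
    (∀ ℓ : ℕ, ℓ.Prime → ℓ ∣ p * M → ℓ ∈ S) →
    ∀ (a : ℕ → ℤ) (x : JZero (p * M)), EigenPoint (p * M) p S a x → NotEisenstein p S a →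
      ∀ A : ValuationSubring Qbar, A.LiesOverPrime p → PeuPoint A p x → OccursModP p M S a

/-- An eigenpoint moved into by inertia and negated by an inertia element fixing `μ_p` makes its
system occur in level `M`. -/
def NegTwistExit : Prop :=
  ∀ (p M : ℕ), p.Prime → p ≠ 2 → ¬ p ∣ M → 0 < M → ∀ [NeZero (p * M)] (S : Finset ℕ),
    (∀ ℓ : ℕ, ℓ.Prime → ℓ ∣ p * M → ℓ ∈ S) →
    ∀ (a : ℕ → ℤ) (x x' : JZero (p * M)), EigenPoint (p * M) p S a x → (p : ℤ) • x' = 0 →
      ∀ A : ValuationSubring Qbar, A.LiesOverPrime p → ∀ σ τ : Γℚ,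
        σ ∈ A.inertiaSubgroupIn ℚ → τ ∈ A.inertiaSubgroupIn ℚ → σ • x' - x' = x →
        (∀ ζ : Qbar, ζ ^ p = 1 → τ ζ = ζ) → τ • x = -x → OccursModP p M S a

/-- The local shape of `E[p]` at a place over `p`. -/
def LocalInputAt (W : WeierstrassCurve ℤ) (p : ℕ) (A : ValuationSubring Qbar) : Prop :=
  (∃ y : Tors W p, y ≠ 0 ∧ PeuPoint A p y) ∨
    ∃ τ ∈ A.inertiaSubgroupIn ℚ,
      (∀ ζ : Qbar, ζ ^ p = 1 → τ ζ = ζ) ∧ ∀ y : Tors W p, τ • y = -y

/-- The local shape holds at a semistable, peu ramifié prime. -/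
def LocalInputHolds : Prop :=
  ∀ (W : WeierstrassCurve ℤ), W.Δ ≠ 0 → ∀ {p : ℕ}, p.Prime → p ≠ 2 →
    ((p : ℤ) ∣ W.Δ → ¬ (p : ℤ) ∣ W.c₄) →
    (p : ℤ) ∣ padicValRat p (W.map (Int.castRingHom ℚ)).Δ →
    ∀ A : ValuationSubring Qbar, A.LiesOverPrime p → LocalInputAt W p A

end FermatLib.MazurP.OddP

end
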