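import Mathlib.Analysis.Complex.UpperHalfPlane.MoebiusAction
import Mathlib.NumberTheory.ModularForms.CongruenceSubgroups
import Mathlib.Data.Nat.Sqrt

/-!
# Points of order three of `Γ₀(Ml)` have the same two images in `X₀(M)`

If `γ ∈ Γ₀(Ml)` of trace `±1` fixes `τ`, its quadratic form represents `l` by some `(x, y)` with
`l ∣ x` (pigeonhole), and the corresponding matrix of `Γ₀(M)` maps `τ` to `lτ`.
-/

set_option autoImplicit false

open scoped MatrixGroups

namespace FermatLib.MazurP.OddP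

/-- **Thue's lemma.** -/
theorem exists_small_congr {l : ℕ} (hl : l.Prime) (k : ℤ) :
    ∃ X Y : ℤ, (X, Y) ≠ 0 ∧ (l : ℤ) ∣ X - k * Y ∧ X ^ 2 < l ∧ Y ^ 2 < l := by
  classical
  have : NeZero l := ⟨hl.ne_zero⟩
  set s := Nat.sqrt l
  let f : Fin (s + 1) × Fin (s + 1) → ZMod l := fun a => ((a.1 : ℕ) : ZMod l) - k * (a.2 : ℕ)
  have hcard : Fintype.card (ZMod l) < Fintype.card (Fin (s + 1) × Fin (s + 1)) := by
    rw [ZMod.card, Fintype.card_prod, Fintype.card_fin]
    exact Nat.lt_succ_sqrt l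
  obtain ⟨a, b, hab, hf⟩ := Fintype.exists_ne_map_eq_of_card_lt f hcard
  have hs : (s : ℤ) ^ 2 < l := by
    have h1 : s * s ≤ l := Nat.sqrt_le l
    have h2 : s * s ≠ l := fun h => (Irreducible.not_isSquare hl) ⟨s, h.symm⟩
    have : s ^ 2 < l := by rw [sq]; omega
    exact_mod_cast this
  have hlt : ∀ u v : Fin (s + 1), ((u : ℤ) - v) ^ 2 < l := fun u v => by
    have hu : (u : ℤ) ≤ s := by exact_mod_cast Nat.le_of_lt_succ u.2
    have hv : (v : ℤ) ≤ s := by exact_mod_cast Nat.le_of_lt_succ v.2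
    nlinarith [mul_nonneg (show (0 : ℤ) ≤ s + (u - v) by omega) (show (0 : ℤ) ≤ s - (u - v) by omega)]
  refine ⟨(a.1 : ℤ) - b.1, (a.2 : ℤ) - b.2, fun h => hab ?_, ?_, hlt _ _, hlt _ _⟩
  · have h1 := congrArg Prod.fst h
    have h2 := congrArg Prod.snd h
    simp only [Prod.fst_zero, Prod.snd_zero] at h1 h2
    exact Prod.ext (Fin.ext (by omega)) (Fin.ext (by omega))
  · rw [← ZMod.intCast_zmod_eq_zero_iff_dvd]
    simp only [f] at hf
    push_cast
    linear_combination hf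

/-- A form of discriminant `-3` with leading coefficient divisible by `l` represents `l`, with
`l ∣ x`. -/
theorem exists_represent {l : ℕ} (hl : l.Prime) {B b c : ℤ} (hdisc : B ^ 2 + 4 * b * c = -3)
    (hc : (l : ℤ) ∣ c) : ∃ x y : ℤ, x * (x + B * y) - b * c * y ^ 2 = l ∧ (l : ℤ) ∣ x := by
  obtain ⟨k, hk⟩ : Odd B := by
    rcases Int.even_or_odd B with ⟨m, rfl⟩ | h
    · have h4 : (2 : ℤ) ∣ -3 := ⟨2 * m ^ 2 + 2 * b * c, by linear_combination -hdisc⟩
      omega
    · exact h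
  subst hk
  have hbc : k ^ 2 + k + 1 + b * c = 0 := by linarith
  obtain ⟨X, Y, hne, hXY, hX, hY⟩ := exists_small_congr hl k
  set N := X ^ 2 + X * Y + Y ^ 2 with hN
  set x := X - k * Y
  have hform : x * (x + (2 * k + 1) * Y) - b * c * Y ^ 2 = N := by
    simp only [x, hN]
    linear_combination (-Y ^ 2) * hbc
  have hdvd : (l : ℤ) ∣ N :=
    hform ▸ dvd_sub (hXY.mul_right _) ((hc.mul_left b).mul_right _)
  have hpos : 0 < N := by
    rcases eq_or_ne Y 0 with h | h
    · have : X ≠ 0 := fun h' => hne (by simp [h, h'])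
      simp only [hN, h]
      have : 0 < X ^ 2 := by positivity
      linarith
    · nlinarith [sq_nonneg (2 * X + Y), show 0 < Y ^ 2 by positivity]
  have hlt : N < 3 * l := by nlinarith [sq_nonneg (X - Y)]
  obtain ⟨m, hm⟩ := hdvd
  have hl0 : (0 : ℤ) < l := by exact_mod_cast hl.pos
  have hm1 : m = 1 ∨ m = 2 := by
    have : 0 < m := by nlinarith
    have : m < 3 := by nlinarith
    omega
  rcases hm1 with rfl | rfl
  · exact ⟨x, Y, by rw [hform, hm, mul_one], hXY⟩
  · exfalso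
    have hev : Even (X ^ 2 + X * Y + Y ^ 2) := ⟨l, by rw [← hN, hm]; ring⟩
    simp only [Int.even_add, Int.even_mul, Int.even_pow] at hev
    have h2 : Even X ∧ Even Y := by tauto
    obtain ⟨⟨u, rfl⟩, ⟨v, rfl⟩⟩ := h2
    have hl2 : (2 : ℤ) ∣ l := ⟨u ^ 2 + u * v + v ^ 2, by nlinarith⟩
    obtain rfl : l = 2 := ((Nat.prime_dvd_prime_iff_eq Nat.prime_two hl).mp (by exact_mod_cast hl2)).symm
    obtain ⟨c', rfl⟩ := hc
    have hk2 : Even (k ^ 2 + k) := by simp [Int.even_add, Int.even_pow]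
    obtain ⟨n, hn⟩ := hk2
    push_cast at hbc
    have : (2 : ℤ) ∣ 1 := ⟨-n - b * c', by linarith⟩
    omega

/-- **A point of order three of `Γ₀(Ml)` and its multiple by `l` are `Γ₀(M)`-equivalent.** -/
theorem exists_gamma0_smul_mul {M l : ℕ} (hl : l.Prime) {γ : SL(2, ℤ)}
    (hγ : γ ∈ CongruenceSubgroup.Gamma0 (M * l)) (htr : (γ 0 0 + γ 1 1) ^ 2 = 1)
    {τ : UpperHalfPlane} (hfix : γ • τ = τ) :
    ∃ g ∈ CongruenceSubgroup.Gamma0 M, ((g • τ : UpperHalfPlane) : ℂ) = l * τ := by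
  set a := γ 0 0 with ha
  set b := γ 0 1 with hb
  set c := γ 1 0 with hc
  set d := γ 1 1 with hd
  have hdet : a * d - b * c = 1 := (Matrix.det_fin_two _).symm.trans γ.2
  have hdvd : ((M * l : ℕ) : ℤ) ∣ c :=
    (ZMod.intCast_zmod_eq_zero_iff_dvd _ _).mp (CongruenceSubgroup.Gamma0_mem.mp hγ)
  push_cast at hdvd
  obtain ⟨c₀, hc₀⟩ := hdvd
  have hden : ((c : ℤ) : ℂ) * τ + (d : ℂ) ≠ 0 := by
    have := UpperHalfPlane.denom_ne_zero (γ : GL (Fin 2) ℝ) τ
    simpa [UpperHalfPlane.denom] using this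
  have hquad : (c : ℂ) * τ ^ 2 - ((a : ℂ) - d) * τ - b = 0 := by
    have h0 := congrArg (fun z : UpperHalfPlane => (z : ℂ)) hfix
    simp only [UpperHalfPlane.coe_specialLinearGroup_apply, algebraMap_int_eq,
      Int.coe_castRingHom] at h0
    rw [div_eq_iff (by simpa using hden)] at h0
    simp only [← ha, ← hb, ← hc, ← hd, Complex.ofReal_intCast] at h0
    linear_combination -h0
  obtain ⟨x, y, hxy, x₀, hx₀⟩ := exists_represent hl (B := a - d) (b := b) (c := c)
    (by linear_combination htr - 4 * hdet) ⟨M * c₀, by rw [hc₀]; ring⟩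
  have hl0 : (l : ℤ) ≠ 0 := by exact_mod_cast hl.ne_zero
  have hdet' : (!![x + (a - d) * y, y * b; M * c₀ * y, x₀] : Matrix (Fin 2) (Fin 2) ℤ).det = 1 := by
    rw [Matrix.det_fin_two_of]
    refine mul_left_cancel₀ hl0 ?_
    linear_combination hxy - (x + (a - d) * y) * hx₀ + b * y ^ 2 * hc₀
  obtain ⟨g, hg⟩ : ∃ g : SL(2, ℤ),
      (g : Matrix (Fin 2) (Fin 2) ℤ) = !![x + (a - d) * y, y * b; M * c₀ * y, x₀] :=
    ⟨⟨_, hdet'⟩, rfl⟩
  refine ⟨g, CongruenceSubgroup.Gamma0_mem.mpr ?_, ?_⟩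
  · simp [hg]
  · rw [UpperHalfPlane.coe_specialLinearGroup_apply]
    simp [hg, algebraMap_int_eq]
    have hne : ((M : ℂ) * c₀ * y) * τ + (x₀ : ℂ) ≠ 0 := by
      intro h0
      have him := congrArg Complex.im h0
      have hre := congrArg Complex.re h0
      simp at him hre
      have hz : (M : ℝ) * c₀ * y = 0 := by
        rcases him with h | h
        · rcases h with (h | h) | h <;> simp [h]
        · exact absurd h τ.im_pos.ne'
      rw [hz, zero_mul, zero_add] at hre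
      have hx00 : x₀ = 0 := by exact_mod_cast hre
      have hz' : (M : ℤ) * c₀ * y = 0 := by exact_mod_cast hz
      rw [hx₀, hx00, mul_zero, zero_mul, zero_sub] at hxy
      apply hl0
      rw [← hxy, hc₀]
      linear_combination (-(b * l * y)) * hz'
    rw [div_eq_iff hne]
    have hxC : (x : ℂ) = l * x₀ := by exact_mod_cast hx₀
    have hcC : (c : ℂ) = M * l * c₀ := by exact_mod_cast hc₀
    linear_combination hxC * (τ : ℂ) - (y : ℂ) * hquad + (y : ℂ) * (τ : ℂ) ^ 2 * hcC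

end FermatLib.MazurP.OddP
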