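import Fermat.Agent.Extra.S39.EllipticArith
import Fermat.Agent.Modular.PlaceCounts
import Fermat.Agent.Igusa.Carayol.LevelElliptic
import Fermat.Agent.Galois.MazurP.DegeneracyHecke
import Fermat.Agent.Modular.CorrHecke

/-!
# The two images in `X₀(M)` of an elliptic place of order three of `X₀(Ml)` coincide
-/

set_option autoImplicit false
set_option synthInstance.maxHeartbeats 400000

noncomputable section

open UpperHalfPlane hiding I
open CongruenceSubgroup ModularCurve AlgebraicCurve
open FermatLib.Modular FermatLib.Modular.Corr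
open scoped MatrixGroups Manifold Topology

namespace FermatLib.MazurP.OddP

attribute [local instance] neZero_mul'

local notation "Qbar" => AlgebraicClosure ℚ

section Diag

variable (d : ℕ) [NeZero d]

/-- `τ ↦ dτ` on holomorphic functions. -/
def holDiag : holFun →+* holFun where
  toFun G := ⟨fun τ => (G : ℍ → ℂ) (ModularForm.heckeDiagMatrix d • τ),
    G.2.comp (UpperHalfPlane.mdifferentiable_smul (ModularForm.det_heckeDiagMatrix_pos d))⟩
  map_one' := rfl
  map_mul' _ _ := rfl
  map_zero' := rfl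
  map_add' _ _ := rfl

omit [NeZero d] in
theorem holDiag_injective : Function.Injective (holDiag d) := fun a b h => by
  refine Subtype.ext (funext fun τ => ?_)
  have := congrFun (congrArg Subtype.val h) ((ModularForm.heckeDiagMatrix d)⁻¹ • τ)
  simpa [holDiag] using this

/-- `τ ↦ dτ` on meromorphic functions. -/
def meroDiag : MeroH →+* MeroH := IsFractionRing.map (holDiag_injective d)

omit [NeZero d] in
theorem meroDiag_algebraMap (G : holFun) :
    meroDiag d (algebraMap holFun MeroH G) = algebraMap holFun MeroH (holDiag d G) := by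
  rw [meroDiag, IsFractionRing.map, IsLocalization.map_eq]

omit [NeZero d] in
theorem holDiag_algebraMap (c : ℂ) :
    holDiag d (algebraMap ℂ holFun c) = algebraMap ℂ holFun c := Subtype.ext rfl

theorem ordAtH_meroDiag (τ : ℍ) (x : MeroH) :
    ordAtH τ (meroDiag d x) = ordAtH (ModularForm.heckeDiagMatrix d • τ) x := by
  have key : ∀ G : holFun, ordAtH τ (meroDiag d (algebraMap holFun MeroH G)) =
      ordAtH (ModularForm.heckeDiagMatrix d • τ) (algebraMap holFun MeroH G) := fun G => by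
    rw [meroDiag_algebraMap, ordAtH_algebraMap, ordAtH_algebraMap]
    have h := meromorphicOrderAt_comp_of_deriv_ne_zero (f := (G : ℍ → ℂ) ∘ ofComplex)
      (g := fun w : ℂ => (d : ℂ) * w) (x := (τ : ℂ)) (analyticAt_const.mul analyticAt_id)
      (by simp [NeZero.ne d])
    rw [← ModularForm.coe_heckeDiagMatrix_smul (NeZero.ne d) τ] at h
    rw [← h]
    refine meromorphicOrderAt_congr (Filter.EventuallyEq.filter_mono ?_ nhdsWithin_le_nhds)
    filter_upwards [UpperHalfPlane.isOpen_upperHalfPlaneSet.mem_nhds τ.im_pos] with w hw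
    simp only [holDiag, RingHom.coe_mk, MonoidHom.coe_mk, OneHom.coe_mk, Function.comp_apply]
    refine congrArg _ (UpperHalfPlane.ext ?_)
    have hd : (0 : ℝ) < d := by exact_mod_cast Nat.pos_of_ne_zero (NeZero.ne d)
    rw [ModularForm.coe_heckeDiagMatrix_smul (NeZero.ne d), ofComplex_apply_of_im_pos hw,
      ofComplex_apply_of_im_pos (show 0 < ((d : ℂ) * w).im by simpa using mul_pos hd hw)]
  obtain ⟨a, b, -, rfl⟩ := IsFractionRing.div_surjective holFun x
  rw [map_div₀, div_eq_mul_inv, div_eq_mul_inv, AddValuation.map_mul, AddValuation.map_mul,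
    AddValuation.map_inv, AddValuation.map_inv, key a, key b]

end Diag

variable (ι : Qbar →+* ℂ) {M l : ℕ} [NeZero M] [NeZero l]

/-- `j(dτ)` as a meromorphic function. -/
theorem ptHom_qExpand_jqModC (N d : ℕ) [NeZero N] [NeZero d] (hd : d ∣ N)
    (x : fieldBar Qbar N) (hx : (x : LaurentSeries Qbar) = qExpand Qbar d (jqModC Qbar)) :
    ptHom ι N 1 x = algebraMap holFun MeroH
      (weakToHol N 1 ⟨jScaleFun d, jScaleFun_mem_weakMod hd⟩) := by
  have he : baseToCx ι N x = ⟨qExpWeak N ⟨jScaleFun d, jScaleFun_mem_weakMod hd⟩,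
      qExpL_mem_modularFunctionFieldCx N (jScaleFun_mem_weakMod hd)⟩ := by
    refine Subtype.ext ?_
    show coeffMap ι (x : LaurentSeries Qbar) = qExpL (jScaleFun d)
    rw [hx, coeffMap_qExpand, coeffMap_jqModC, qExpL_jScaleFun,
      Modular.Corr.coeffEmb_qExpand, ← jqModC_rat, coeffEmb, coeffMap_jqModC]
  rw [ptHom, RingHom.comp_apply, he]
  exact meroEval_qExpWeak N 1 _ _

/-- The forgetful map keeps the meromorphic function. -/
theorem ptHom_barIncl (x : fieldBar Qbar M) :
    ptHom ι (M * l) 1 (barIncl Qbar (dvd_mul_right M l) x) = ptHom ι M 1 x := by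
  let : Algebra Qbar MeroH :=
    ((algebraMap holFun MeroH).comp ((algebraMap ℂ holFun).comp ι)).toAlgebra
  let f : fieldBar Qbar M →ₐ[Qbar] MeroH :=
    { (ptHom ι (M * l) 1).comp (barIncl Qbar (dvd_mul_right M l)).toRingHom with
      commutes' := fun a => by
        show ptHom ι (M * l) 1 (barIncl Qbar (dvd_mul_right M l) (algebraMap Qbar _ a)) = _
        rw [AlgHom.commutes, ptHom_algebraMap]
        rfl }
  let g : fieldBar Qbar M →ₐ[Qbar] MeroH :=
    { ptHom ι M 1 with commutes' := fun a => (ptHom_algebraMap ι M 1 a).trans rfl }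
  suffices h : f = g from DFunLike.congr_fun h x
  refine fieldBar_algHom_ext M fun y e _ he hy => ?_
  show ptHom ι (M * l) 1 (barIncl Qbar (dvd_mul_right M l) y) = ptHom ι M 1 y
  rw [ptHom_qExpand_jqModC ι (M * l) e (he.mul_right l) _ ((coe_barIncl _ y).trans hy),
    ptHom_qExpand_jqModC ι M e he y hy]
  rfl

/-- `f ↦ f(lτ)` composes with `τ ↦ lτ`. -/
theorem ptHom_barBeta (x : fieldBar Qbar M) :
    ptHom ι (M * l) 1 (barBeta Qbar l dvd_rfl x) = meroDiag l (ptHom ι M 1 x) := by
  let : Algebra Qbar MeroH :=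
    ((algebraMap holFun MeroH).comp ((algebraMap ℂ holFun).comp ι)).toAlgebra
  let f : fieldBar Qbar M →ₐ[Qbar] MeroH :=
    { (ptHom ι (M * l) 1).comp (barBeta Qbar l (dvd_refl (M * l))).toRingHom with
      commutes' := fun a => by
        show ptHom ι (M * l) 1 (barBeta Qbar l (dvd_refl (M * l)) (algebraMap Qbar _ a)) = _
        rw [AlgHom.commutes, ptHom_algebraMap]
        rfl }
  let g : fieldBar Qbar M →ₐ[Qbar] MeroH :=
    { (meroDiag l).comp (ptHom ι M 1) with
      commutes' := fun a => by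
        show meroDiag l (ptHom ι M 1 (algebraMap Qbar _ a)) = _
        rw [ptHom_algebraMap, meroDiag_algebraMap, holDiag_algebraMap]
        rfl }
  suffices h : f = g from DFunLike.congr_fun h x
  refine fieldBar_algHom_ext M fun y e _ he hy => ?_
  show ptHom ι (M * l) 1 (barBeta Qbar l dvd_rfl y) = meroDiag l (ptHom ι M 1 y)
  have : NeZero (l * e) := neZero_mul' l e
  rw [ptHom_qExpand_jqModC ι (M * l) (l * e) (mul_comm M l ▸ mul_dvd_mul_left l he) _
      (by rw [coe_barBeta, hy, qExpand_qExpand]),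
    ptHom_qExpand_jqModC ι M e he y hy, meroDiag_algebraMap]
  refine congrArg _ (Subtype.ext (funext fun τ => ?_))
  show jScaleFun (l * e) ((1 : SL(2, ℤ)) • τ) =
    jScaleFun e ((1 : SL(2, ℤ)) • (ModularForm.heckeDiagMatrix l • τ))
  rw [one_smul, one_smul, jScaleFun_apply, jScaleFun_apply]
  refine congrArg jFun (UpperHalfPlane.ext ?_)
  rw [ModularForm.coe_heckeDiagMatrix_smul (NeZero.ne (l * e)),
    ModularForm.coe_heckeDiagMatrix_smul (NeZero.ne e),
    ModularForm.coe_heckeDiagMatrix_smul (NeZero.ne l)]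
  push_cast
  ring

/-- **An elliptic place of order three of `X₀(Ml)` has the same image under both maps.** -/
theorem restrictAlong_barIncl_eq_barBeta [Fact l.Prime]
    (W : Place Qbar (fieldBar Qbar (M * l))) (hW : 0 < W.ord (Modular.jElem Qbar (M * l)))
    (h3 : ¬ (3 : ℤ) ∣ W.ord (Modular.jElem Qbar (M * l)))
    (hα : (barIncl Qbar (dvd_mul_right M l)).toRingHom.IsIntegral)
    (hβ : (barBeta Qbar l (dvd_refl (M * l))).toRingHom.IsIntegral) :
    W.restrictAlong (barIncl Qbar (dvd_mul_right M l)) hα =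
      W.restrictAlong (barBeta Qbar l (dvd_refl (M * l))) hβ := by
  have : Algebra.IsAlgebraic ℚ Qbar := AlgebraicClosure.isAlgebraic ℚ
  obtain ⟨ι⟩ : Nonempty (Qbar →+* ℂ) := ⟨(IsAlgClosed.lift (R := ℚ)).toRingHom⟩
  obtain ⟨τ, hτ, rfl⟩ := exists_ptPlace_of_ord_sub_pos Qbar (M * l) ι W 0
    (by rwa [map_zero, sub_zero])
  have hj : jFun τ = 0 := by rw [hτ, map_zero]
  have hord := ord_jElem_sub_ptPlace ι (M * l) τ 0 hτ.symm
  have hR : jRamIndex (jFun τ) = 3 := by rw [hj, jRamIndex, if_pos rfl]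
  simp only [map_zero, sub_zero, hR] at hord
  have hidx1 : ptIndex (M * l) τ ≠ 1 := fun e => h3 (by
    rw [e, Nat.cast_one, one_mul] at hord
    exact hord ▸ dvd_refl _)
  have hidx : ptIndex (M * l) τ = 3 := by
    have : ptIndex (M * l) τ = 1 ∨ ptIndex (M * l) τ = 3 := by
      unfold ptIndex
      split_ifs
      · exact Or.inl rfl
      · exact Or.inr hR
    exact this.resolve_left hidx1
  obtain ⟨γ, hγ, hfix, hprim⟩ := exists_elliptic_of_ptIndex_ne_one (M * l) τ hidx1
  rw [hidx] at hprim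
  have htr : (γ 0 0 + γ 1 1) ^ 2 = 1 := by
    rcases Igusa.Carayol.eq_one_or_neg_one_or_trace_sq_lt hfix with rfl | rfl | h
    · exact absurd (by simp [UpperHalfPlane.denom]) (hprim.ne_one (by norm_num))
    · exact absurd (by simp [UpperHalfPlane.denom]) (hprim.ne_one (by norm_num))
    have h1 : -2 < γ 0 0 + γ 1 1 := by nlinarith
    have h2 : γ 0 0 + γ 1 1 < 2 := by nlinarith
    rcases (show γ 0 0 + γ 1 1 = -1 ∨ γ 0 0 + γ 1 1 = 0 ∨ γ 0 0 + γ 1 1 = 1 by omega)
      with ht | ht | ht
    · rw [ht]; norm_num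
    · exfalso
      have hdet : γ 0 0 * γ 1 1 - γ 0 1 * γ 1 0 = 1 := (Matrix.det_fin_two _).symm.trans γ.2
      have hden : UpperHalfPlane.denom γ τ = (γ 1 0 : ℂ) * τ + (γ 1 1 : ℂ) := by
        simp [UpperHalfPlane.denom]
      have hden0 : (γ 1 0 : ℂ) * τ + (γ 1 1 : ℂ) ≠ 0 := hden ▸ UpperHalfPlane.denom_ne_zero _ τ
      have h0 := congrArg (fun z : ℍ => (z : ℂ)) hfix
      simp only [coe_specialLinearGroup_apply, algebraMap_int_eq, Int.coe_castRingHom,
        Complex.ofReal_intCast] at h0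
      rw [div_eq_iff hden0] at h0
      have hdetC : (γ 0 0 : ℂ) * γ 1 1 - γ 0 1 * γ 1 0 = 1 := by exact_mod_cast hdet
      have htC : (γ 0 0 : ℂ) + γ 1 1 = 0 := by exact_mod_cast ht
      have hsq : UpperHalfPlane.denom γ τ ^ 2 = -1 := by
        rw [hden]
        linear_combination -(γ 1 0 : ℂ) * h0 - hdetC +
          ((γ 1 0 : ℂ) * τ + γ 1 1) * htC
      have h' := hprim.pow_eq_one
      rw [zpow_neg, zpow_ofNat, hsq] at h'
      norm_num at h'
    · rw [ht]; norm_num
  obtain ⟨g, hg, hgτ⟩ := exists_gamma0_smul_mul (M := M) (l := l) Fact.out hγ htr hfix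
  have hgd : g • τ = ModularForm.heckeDiagMatrix l • τ := by
    apply UpperHalfPlane.ext
    rw [hgτ, ModularForm.coe_heckeDiagMatrix_smul (NeZero.ne l)]
  have hv := inducesPlace_ptPlace ι (M * l) τ ⟨0, hτ.symm⟩
  have e₁ : InducesPlace (ordAtH τ) (ptHom ι M 1)
      ((ptPlace ι (M * l) τ ⟨0, hτ.symm⟩).restrictAlong (barIncl Qbar (dvd_mul_right M l)) hα) :=
    fun f => by
      rw [mem_restrictAlong_iff, ← ptHom_barIncl ι (l := l) f]
      exact hv _
  have e₂ : InducesPlace (ordAtH τ) (ptHom ι M 1)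
      ((ptPlace ι (M * l) τ ⟨0, hτ.symm⟩).restrictAlong (barBeta Qbar l (dvd_refl (M * l))) hβ) :=
    fun f => by
      rw [mem_restrictAlong_iff, ← ordAtH_ptHom_Gamma0_smul ι M hg τ f, hgd, ← ordAtH_meroDiag,
        ← ptHom_barBeta ι (l := l) f]
      exact hv _
  exact e₁.unique e₂

end FermatLib.MazurP.OddP
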