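import Fermat.Agent.Extra.S39.Defs
import Fermat.Agent.Galois.MazurP.GaloisSideMain
import Fermat.Agent.Galois.MazurP.AtP
import Fermat.Agent.Galois.AttachmentProved
import Fermat.Agent.Galois.Flat.Corollaries

/-!
# Lowering at `p` for curves semistable at `p` from the torsion statements

`E[p]` sits inside the Hecke eigenspace of `J₀(pM)[p]`; its local shape at `p` feeds either the
principle on very little ramified points or the exit for a negating inertia element.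
-/

set_option autoImplicit false

noncomputable section

open scoped WeierstrassCurve.Affine

namespace FermatLib.MazurP.OddP

open ModularCurve ModularFormClass FermatLib.Galois FermatLib.Galois.Attach FermatLib.AtP

local notation "Qbar" => AlgebraicClosure ℚ
local notation "Γℚ" => (AlgebraicClosure ℚ ≃ₐ[ℚ] AlgebraicClosure ℚ)

variable {p : ℕ} [Fact p.Prime] {W : WeierstrassCurve ℤ}

/-- Inertia at a place over an odd `p` moves some point of `E[p]`. -/
theorem exists_inertia_smul_ne (hΔ : W.Δ ≠ 0) (hp2 : p ≠ 2) {A : ValuationSubring Qbar}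
    (hA : A.LiesOverPrime p) :
    ∃ σ ∈ A.inertiaSubgroupIn ℚ, ∃ z : Tors W p, σ • z ≠ z := by
  obtain ⟨ζ, hζ⟩ := Mazur.exists_isPrimitiveRoot_qbar p
  obtain ⟨σ, hσ, hne⟩ := Flat.exists_inertia_apply_ne Fact.out hp2 hA hζ
  refine ⟨σ, hσ, ?_⟩
  by_contra! hfix
  have h1 : (MLT.curveResidualRep W hΔ p).ρ σ = 1 :=
    LinearMap.ext fun x => (MLT.curveResidualRep_apply W hΔ p σ x).trans (hfix x)
  have hdet := MLT.curveResidualRep_det W hΔ p σ
  rw [h1] at hdet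
  exact hne ((Mazur.cycloChar_eq_one_iff p hζ σ).mp
    (Units.ext (hdet.symm.trans (map_one _))))

/-- **Mazur's principle at `p`** for a curve semistable and peu ramifié at an odd `p`. -/
theorem isResiduallyModularOfLevel_div (h : PrincipleAtPOdd) (hn : NegTwistExit)
    (hl : LocalInputHolds) (hΔ : W.Δ ≠ 0) (hp : p.Prime) (hp2 : p ≠ 2)
    (hsemi : (p : ℤ) ∣ W.Δ → ¬ (p : ℤ) ∣ W.c₄) (hirr : W.ModRepIsIrreducible p)
    (hfin : (W.map (Int.castRingHom ℚ)).IsPeuRamifieeAt p p)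
    {M : ℕ} (hM : 0 < M) (hpM : p ∣ M) (hp2M : ¬ p ^ 2 ∣ M)
    (hmod : W.IsResiduallyModularOfLevel p M) :
    W.IsResiduallyModularOfLevel p (M / p) := by
  obtain ⟨f, 𝔪, hf, hmax, hpm, hcong⟩ := hmod
  obtain ⟨M', rfl⟩ := hpM
  rw [Nat.mul_div_cancel_left M' hp.pos]
  have hM' : ¬ p ∣ M' := fun hd => hp2M (by rw [pow_two]; exact Nat.mul_dvd_mul_left _ hd)
  have hM0 : 0 < M' := Nat.pos_of_ne_zero fun e => hM' (e ▸ dvd_zero _)
  have : NeZero (p * M') := ⟨hM.ne'⟩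
  set S := (p * M' * W.Δ.natAbs).primeFactors
  have hne : p * M' * W.Δ.natAbs ≠ 0 :=
    Nat.mul_ne_zero hM.ne' (Int.natAbs_ne_zero.mpr hΔ)
  have hS : ∀ q : ℕ, q.Prime → (q ∣ p * M' ∨ (q : ℤ) ∣ W.Δ) → q ∈ S := fun q hq hd =>
    Nat.mem_primeFactors.mpr ⟨hq, hd.elim (fun h => h.mul_right _)
      (fun h => (Int.natCast_dvd.mp h).mul_left _), hne⟩
  have hpS : p ∈ S := hS _ hp (Or.inl (dvd_mul_right _ _))
  obtain ⟨ι, hinj, heq, heig⟩ := exists_eigen_embedding (N := p * M') (W := W)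
    (atPSpecializationInput _ _ hp) hΔ hp2 hirr S hpS (fun q hq hd => hS q hq (Or.inl hd))
    (fun q hq hd => hS q hq (Or.inr hd)) hf hmax hpm fun ℓ hℓ hℓS =>
      hcong ℓ hℓ (fun hd => hℓS (hS ℓ hℓ (Or.inr hd))) (fun hd => hℓS (hS ℓ hℓ (Or.inl hd)))
        fun e => hℓS (e ▸ hpS)
  have hSN : ∀ ℓ : ℕ, ℓ.Prime → ℓ ∣ p * M' → ℓ ∈ S := fun ℓ hℓ hd => hS ℓ hℓ (Or.inl hd)
  obtain ⟨A, hA⟩ := FermatLib.Basic.exists_liesOverPrime hp
  have hocc : OccursModP p M' S fun ℓ => W.apOfModel ℓ := by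
    rcases hl W hΔ hp hp2 hsemi hfin A hA with ⟨y, hy0, hy⟩ | ⟨τ, hτ, hζ, hneg⟩
    · exact h p M' hp hp2 hM' hM0 S hSN _ (ι y) (heig y hy0)
        (notEisenstein_of_irreducible hΔ hp2 hirr S hpS fun q hq hd => hS q hq (Or.inr hd))
        A hA (hy.map ι heq)
    · obtain ⟨σ, hσ, z, hz⟩ := exists_inertia_smul_ne hΔ hp2 hA
      refine hn p M' hp hp2 hM' hM0 S hSN _ (ι (σ • z - z)) (ι z)
        (heig _ (sub_ne_zero.mpr hz)) (heig z fun e => hz (by rw [e, smul_zero])).torsion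
        A hA σ τ hσ hτ ?_ hζ ?_
      · rw [map_sub, heq]
      · rw [← heq, hneg, map_neg]
  obtain ⟨g, 𝔫, hg, hmax', hp', hcong'⟩ := hocc
  exact MLT.isResiduallyModularOfLevel_of_forall_notMem Galois.padicAttachment hp hΔ hg hmax' hp'
    S fun ℓ hℓ _ _ _ hℓS => hcong' ℓ hℓ hℓS

omit [Fact p.Prime] in
/-- A good prime is peu ramifié. -/
theorem isPeuRamifieeAt_of_isGoodPrimeFor (hgood : W.IsGoodPrimeFor p) :
    (W.map (Int.castRingHom ℚ)).IsPeuRamifieeAt p p := by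
  unfold WeierstrassCurve.IsPeuRamifieeAt
  rw [WeierstrassCurve.map_Δ, eq_intCast, padicValRat.of_int,
    padicValInt.eq_zero_of_not_dvd hgood]
  simp

/-- **Mazur's principle at a good odd prime `p`.** -/
theorem isResiduallyModularOfLevel_div_of_good (h : PrincipleAtPOdd) (hn : NegTwistExit)
    (hl : LocalInputHolds) (hΔ : W.Δ ≠ 0) (hp : p.Prime) (hp2 : p ≠ 2)
    (hgood : W.IsGoodPrimeFor p) (hirr : W.ModRepIsIrreducible p)
    {M : ℕ} (hM : 0 < M) (hpM : p ∣ M) (hp2M : ¬ p ^ 2 ∣ M)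
    (hmod : W.IsResiduallyModularOfLevel p M) :
    W.IsResiduallyModularOfLevel p (M / p) :=
  isResiduallyModularOfLevel_div h hn hl hΔ hp hp2 (fun hd => absurd hd hgood) hirr
    (isPeuRamifieeAt_of_isGoodPrimeFor hgood) hM hpM hp2M hmod

end FermatLib.MazurP.OddP

end
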