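import Fermat.Agent.Galois.MazurP.WildPoint
import Fermat.Agent.Galois.Flat.Corollaries
import Mathlib.NumberTheory.LegendreSymbol.AddCharacter
import Mathlib.FieldTheory.Fixed

/-!
# A very little ramified point in a finite flat extension of a trivial module by `μ_p`

Let `P` span a line of a finite flat `M` on which inertia acts by the cyclotomic character, and let
inertia move `x ∉ ⟨P⟩` along the line. Some translate of `x` is fixed by inertia, or `x` is rational
over `K₀(b)`, where `b ^ p = r` is fixed by inertia and `|r - 1| = |p|`; then `b - 1` is a wild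
uniformiser.
-/

set_option autoImplicit false

noncomputable section

namespace FermatLib.MazurP.OddP

open Polynomial

local notation "Qbar" => AlgebraicClosure ℚ
local notation "Γℚ" => (AlgebraicClosure ℚ ≃ₐ[ℚ] AlgebraicClosure ℚ)

variable {A : ValuationSubring Qbar} {p : ℕ}

/-- Functions of an integral model separate any two points. -/
theorem exists_fns_ne {M : Type*} [AddCommGroup M] {act : Γℚ → M →+ M}
    (G : Galois.Flat.IntegralModel A act) {u w : M} (h : u ≠ w) :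
    ∃ f ∈ G.fns, f u ≠ f w := by
  obtain ⟨f, hf, hne⟩ := G.separates (u - w) (sub_ne_zero.mpr h)
  by_contra! hall
  obtain ⟨n, a, b, ha, -, hab⟩ := G.comul f hf
  refine hne ?_
  rw [sub_eq_add_neg, hab, ← add_neg_cancel w, hab]
  exact Finset.sum_congr rfl fun i _ => by rw [hall _ (ha i)]

/-- A `p`-th root of unity close to `b`, whose `p`-th power is close to `1`. -/
theorem exists_root_close (hp : p.Prime) (hp2 : p ≠ 2) (hA : A.LiesOverPrime p) {ζ b : Qbar}
    (hζ : IsPrimitiveRoot ζ p)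
    (hb : A.valuation (b ^ p - 1) ≤ A.valuation (p : Qbar) ^ 2) :
    ∃ η : Qbar, η ^ p = 1 ∧ A.valuation (η * b - 1) < A.valuation (ζ - 1) := by
  set v := A.valuation
  by_contra! hall
  have hz : v (ζ - 1) ^ (p - 1) = v (p : Qbar) := Galois.Flat.valuation_sub_one_pow hp hA hζ
  have hz1 : v (ζ - 1) < 1 := Galois.Flat.valuation_sub_one_lt_one hp hA hζ
  have hz0 : 0 < v (ζ - 1) := zero_lt_iff.mpr
    (v.ne_zero_iff.mpr (sub_ne_zero.mpr (hζ.ne_one hp.one_lt)))
  have := congrArg (eval b) (X_pow_sub_one_eq_prod hp.pos hζ)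
  rw [eval_sub, eval_pow, eval_X, eval_one, eval_prod] at this
  simp only [eval_sub, eval_X, eval_C] at this
  rw [this, map_prod] at hb
  have hle : v (ζ - 1) ^ p ≤ v (p : Qbar) ^ 2 := by
    refine le_trans ?_ hb
    conv_lhs => rw [← hζ.card_nthRootsFinset, ← Finset.prod_const]
    refine Finset.prod_le_prod' fun η hη => ?_
    rw [mem_nthRootsFinset hp.pos] at hη
    have hη0 : η ≠ 0 := fun e => by rw [e, zero_pow hp.ne_zero] at hη; exact zero_ne_one hη
    have hvη : v η = 1 := (pow_eq_one_iff_of_nonneg zero_le hp.ne_zero).mp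
      (by rw [← map_pow, hη, map_one])
    refine (hall η⁻¹ (by rw [inv_pow, hη, inv_one])).trans (le_of_eq ?_)
    rw [show η⁻¹ * b - 1 = η⁻¹ * (b - η) by rw [mul_sub, inv_mul_cancel₀ hη0], map_mul, map_inv₀,
      hvη, inv_one, one_mul]
  rw [← hz, ← pow_mul] at hle
  have := hp.two_le
  exact absurd hle (not_le.mpr (pow_lt_pow_right_of_lt_one₀ hz0 hz1 (by omega)))

variable {M : Type} [AddCommGroup M] [Module (ZMod p) M] [DistribMulAction Γℚ M]
  [SMulCommClass Γℚ (ZMod p) M]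

/-- The main lemma. -/
theorem exists_peuPoint_of_flat [Fact p.Prime] (hp2 : p ≠ 2) (hA : A.LiesOverPrime p)
    (hflat : Galois.FlatModel.HasModelAt p M fun (σ : Γℚ) (y : M) => σ • y) {P x : M} (hP : P ≠ 0)
    (hx : ∀ c : ZMod p, x ≠ c • P)
    (hω : ∀ σ ∈ A.inertiaSubgroupIn ℚ, ∀ a : ℕ, (∀ μ : Qbar, μ ^ p = 1 → σ μ = μ ^ a) →
      σ • P = (a : ZMod p) • P)
    (hline : ∀ σ ∈ A.inertiaSubgroupIn ℚ, ∃ c : ZMod p, σ • x = x + c • P) :
    ∃ y : M, y ≠ 0 ∧ PeuPoint A p y := by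
  classical
  have hp : p.Prime := Fact.out
  have : NeZero p := ⟨hp.ne_zero⟩
  obtain ⟨ζ, hζ⟩ := HasEnoughRootsOfUnity.exists_primitiveRoot Qbar p
  set I := A.inertiaSubgroupIn ℚ
  set ψ : AddChar (ZMod p) Qbar := AddChar.zmodChar p hζ.pow_eq_one with hψdef
  have hψnat : ∀ n : ℕ, ψ (n : ZMod p) = ζ ^ n := fun n =>
    AddChar.zmodChar_apply' hζ.pow_eq_one n
  have hψone : ψ 1 = ζ := by simpa using hψnat 1
  have hψinj : Function.Injective ψ := fun i j h => ZMod.val_injective p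
    (hζ.pow_inj (ZMod.val_lt i) (ZMod.val_lt j)
      (by simpa [hψdef, AddChar.zmodChar_apply] using h))
  have hψpow : ∀ i, ψ i ^ p = 1 := fun i => by
    rw [← AddChar.map_nsmul_eq_pow, nsmul_eq_mul, ZMod.natCast_self, zero_mul,
      AddChar.map_zero_eq_one]
  choose! κ hκ using hline
  have hmul : ∀ σ ∈ I, ∃ a : ZMod p, σ • P = a • P ∧ (∀ i, σ (ψ i) = ψ (a * i)) ∧
      a ≠ 0 := by
    intro σ hσ
    obtain ⟨a, ha⟩ := Galois.Flat.exists_exponent hp σ
    refine ⟨(a : ZMod p), hω σ hσ a ha, fun i => ?_, fun h0 => ?_⟩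
    · rw [ha _ (hψpow i), ← AddChar.map_nsmul_eq_pow, nsmul_eq_mul]
    · refine hP ?_
      rw [← inv_smul_smul σ P, hω σ hσ a ha, h0, zero_smul, smul_zero]
  choose! α hαP hαψ hα0 using hmul
  have hact : ∀ σ ∈ I, ∀ i : ZMod p, σ • (x + i • P) = x + (κ σ + α σ * i) • P := by
    intro σ hσ i
    rw [smul_add, smul_comm σ i P, hκ σ hσ, hαP σ hσ, smul_smul, add_assoc, ← add_smul, mul_comm]
  have hinjP : ∀ i j : ZMod p, x + i • P = x + j • P → i = j := fun i j h =>
    smul_left_injective (ZMod p) hP (add_left_cancel h)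
  have hne : ∀ i : ZMod p, x + i • P ≠ 0 := fun i h =>
    hx (-i) (by rw [neg_smul]; exact eq_neg_of_add_eq_zero_left h)
  have hαfix : ∀ σ ∈ I, σ ζ = ζ → α σ = 1 := fun σ hσ h =>
    hψinj (by rw [← mul_one (α σ), ← hαψ σ hσ, hψone, h])
  by_cases hJ : ∀ σ ∈ I, σ ζ = ζ → κ σ = 0
  · -- the image of inertia is abelian
    obtain ⟨τ, hτ, hτζ⟩ := Galois.Flat.exists_inertia_apply_ne hp hp2 hA hζ
    have hα1 : 1 - α τ ≠ 0 := fun h => hτζ (by
      rw [sub_eq_zero] at h
      rw [← hψone, hαψ τ hτ, ← h, one_mul])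
    obtain ⟨i, hi⟩ : ∃ i, i = κ τ / (1 - α τ) := ⟨_, rfl⟩
    have hiτ : κ τ + α τ * i = i := by rw [hi]; field_simp; ring
    refine ⟨x + i • P, hne i, Or.inl fun σ hσ => ?_⟩
    have hg : (τ * σ)⁻¹ * (σ * τ) ∈ I := mul_mem (inv_mem (mul_mem hτ hσ)) (mul_mem hσ hτ)
    have hgζ : ((τ * σ)⁻¹ * (σ * τ)) ζ = ζ := by
      have e : (σ * τ) ζ = (τ * σ) ζ := by
        rw [AlgEquiv.mul_apply, AlgEquiv.mul_apply, ← hψone, hαψ τ hτ, hαψ σ hσ, hαψ σ hσ,
          hαψ τ hτ, mul_left_comm]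
      rw [AlgEquiv.mul_apply, e]
      exact (τ * σ).symm_apply_apply ζ
    have hgy : ((τ * σ)⁻¹ * (σ * τ)) • (x + i • P) = x + i • P := by
      rw [hact _ hg, hJ _ hg hgζ, hαfix _ hg hgζ, one_mul, zero_add]
    have hcomm : (σ * τ) • (x + i • P) = (τ * σ) • (x + i • P) := by
      conv_rhs => rw [← hgy, smul_smul, mul_inv_cancel_left]
    rw [mul_smul, mul_smul, hact τ hτ, hiτ, hact σ hσ, hact τ hτ] at hcomm
    have h1 := hinjP _ _ hcomm
    have h2 : (1 - α τ) * ((κ σ + α σ * i) - i) = 0 := by linear_combination h1 + hiτ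
    rw [hact σ hσ, sub_eq_zero.mp ((mul_eq_zero.mp h2).resolve_left hα1)]
  push Not at hJ
  obtain ⟨σ₁, hσ₁, hσ₁ζ, hκ₁⟩ := hJ
  -- the Kummer generator
  have hcast : Galois.FlatModel.HasModelAt p M
      fun (σ : Γℚ) (y : M) => DistribSMul.toAddMonoidHom M σ y := hflat
  have := Galois.Flat.finite_of_hasModelAt (act := fun σ : Γℚ => DistribSMul.toAddMonoidHom M σ)
    hcast
  obtain ⟨G, -⟩ := Galois.Flat.exists_integralModel
    (act := fun σ : Γℚ => DistribSMul.toAddMonoidHom M σ) hp hA hcast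
  let S : Submonoid (M → Qbar) :=
    { carrier := {f | f ∈ G.fns}
      one_mem' := G.fns_one_mem
      mul_mem' := fun hf hg => G.fns_mul_mem _ _ hf hg }
  let χ : ZMod p → (S →* Qbar) := fun i =>
    { toFun := fun f => f.1 (x + i • P)
      map_one' := rfl
      map_mul' := fun _ _ => rfl }
  have hχ : Function.Injective χ := fun i j h => by
    by_contra hij
    obtain ⟨f, hf, hfne⟩ := exists_fns_ne G (fun e => hij (hinjP i j e))
    exact hfne (DFunLike.congr_fun h (⟨f, hf⟩ : S))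
  obtain ⟨f, hf⟩ : ∃ f : S, (∑ i, ψ (-i) * f.1 (x + i • P)) ≠ 0 := by
    by_contra! hall
    have h0 : (∑ i, ψ (-i) • (⇑(χ i) : S → Qbar)) = 0 := funext fun f => by
      rw [Finset.sum_apply, Pi.zero_apply]
      simpa [χ] using hall f
    have := Fintype.linearIndependent_iff.mp
      ((linearIndependent_monoidHom S Qbar).comp χ hχ) (fun i => ψ (-i)) h0 0
    simp at this
  set β := ∑ i, ψ (-i) * f.1 (x + i • P) with hβdef
  have hβ : ∀ σ ∈ I, σ β = ψ (κ σ) * β := by
    intro σ hσ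
    rw [hβdef, map_sum, Finset.mul_sum]
    refine Fintype.sum_bijective (fun i => κ σ + α σ * i) ?_ _ _ fun i => ?_
    · refine (Finite.injective_iff_bijective).mp fun i j h => ?_
      exact mul_left_cancel₀ (hα0 σ hσ) (add_left_cancel h)
    · have he : f.1 (x + (κ σ + α σ * i) • P) = σ (f.1 (x + i • P)) := by
        rw [← hact σ hσ i]
        exact G.equivariant σ hσ f.1 f.2 (x + i • P)
      rw [map_mul, hαψ σ hσ, he, ← mul_assoc, ← AddChar.map_add_eq_mul]
      congr 2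
      ring
  have hfixx : ∀ σ ∈ I, σ β = β → σ • x = x := fun σ hσ h => by
    rw [hβ σ hσ] at h
    have h0 : κ σ = 0 := hψinj (by
      rw [AddChar.map_zero_eq_one]; exact mul_right_cancel₀ hf (h.trans (one_mul β).symm))
    rw [hκ σ hσ, h0, zero_smul, add_zero]
  obtain ⟨k, hk⟩ : ∃ k : ℤ, A.valuation β = A.valuation (p : Qbar) ^ k := by
    refine (G.fixed_or_valuation_eq_zpow hp hA (N := ⊥) Galois.Flat.isInertiaStable_bot
      (x := x) hζ hf (fun σ hσ => ?_) (fun σ hσ _ hσβ => ?_)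
      (fun σ hσ _ => ?_)).resolve_left ?_
    · rw [map_pow, hβ σ hσ, mul_pow, hψpow, one_mul]
    · rw [AddSubgroup.mem_bot]
      exact sub_eq_zero.mpr (hfixx σ hσ hσβ)
    · rw [AddSubgroup.mem_bot, ← Nat.cast_smul_eq_nsmul (ZMod p), ZMod.natCast_self, zero_smul]
    · intro h
      have h1 : σ₁ • x = x := sub_eq_zero.mp (AddSubgroup.mem_bot.mp (h σ₁ hσ₁ hσ₁ζ))
      rw [hκ σ₁ hσ₁] at h1
      exact hκ₁ (smul_left_injective (ZMod p) hP
        ((add_eq_left.mp h1).trans (zero_smul _ P).symm))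
  -- normalise to a principal unit
  set v := A.valuation
  have hp0 : (p : Qbar) ≠ 0 := Nat.cast_ne_zero.mpr hp.ne_zero
  have hvp0 : v (p : Qbar) ≠ 0 := v.ne_zero_iff.mpr hp0
  have hvp1 : v (p : Qbar) < 1 := Galois.Flat.valuation_prime_lt_one hA
  have hu : v (β / (p : Qbar) ^ k) = 1 := by
    rw [map_div₀, map_zpow₀, hk, div_self (zpow_ne_zero _ hvp0)]
  obtain ⟨a, haK, -, ha⟩ := exists_inertiaField_sub_lt hp hA
    ((A.valuation_le_one_iff _).mp hu.le)
  have hva : v a = 1 := by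
    rw [show a = β / (p : Qbar) ^ k - (β / (p : Qbar) ^ k - a) by ring,
      v.map_sub_eq_of_lt_left (by rw [hu]; exact ha), hu]
  have ha0 : a ≠ 0 := fun e => by rw [e, map_zero] at hva; exact zero_ne_one hva
  obtain ⟨b, hbdef⟩ : ∃ b, b = β / (p : Qbar) ^ k / a := ⟨_, rfl⟩
  have hσb : ∀ σ ∈ I, σ b = ψ (κ σ) * b := fun σ hσ => by
    rw [hbdef, map_div₀, map_div₀, map_zpow₀, map_natCast, hβ σ hσ,
      mem_inertiaField_iff.mp haK σ hσ]
    ring
  have hb1 : v (b - 1) < 1 := by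
    rw [hbdef, show β / (p : Qbar) ^ k / a - 1 = (β / (p : Qbar) ^ k - a) / a by
      rw [sub_div, div_self ha0], map_div₀, hva, div_one]
    exact ha
  have hvb : v b = 1 := by
    rw [show b = 1 + (b - 1) by ring, v.map_add_eq_of_lt_left (by rw [map_one]; exact hb1), map_one]
  have hrK : b ^ p - 1 ∈ inertiaField A := mem_inertiaField_iff.mpr fun σ hσ => by
    rw [map_sub, map_one, map_pow, hσb σ hσ, mul_pow, hψpow, one_mul]
  have hr1 : v (b ^ p - 1) < 1 := by
    rw [← geom_sum_mul, map_mul]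
    refine mul_lt_one_of_nonneg_of_lt_one_right (v.map_sum_le fun i _ => ?_) zero_le hb1
    rw [map_pow, hvb, one_pow]
  have hz : v (ζ - 1) ^ (p - 1) = v (p : Qbar) := Galois.Flat.valuation_sub_one_pow hp hA hζ
  have hz1 : v (ζ - 1) < 1 := Galois.Flat.valuation_sub_one_lt_one hp hA hζ
  have hz0 : 0 < v (ζ - 1) := zero_lt_iff.mpr
    (v.ne_zero_iff.mpr (sub_ne_zero.mpr (hζ.ne_one hp.one_lt)))
  have hψv : ∀ i : ZMod p, i ≠ 0 → v (ψ i - 1) = v (ζ - 1) := by
    intro i hi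
    have hprim : IsPrimitiveRoot (ψ i) p := by
      rw [← ZMod.natCast_zmod_val i, hψnat]
      refine hζ.pow_of_coprime _ ((hp.coprime_iff_not_dvd.mpr fun hd => hi ?_).symm)
      rw [← ZMod.natCast_zmod_val i]
      exact (ZMod.natCast_eq_zero_iff _ p).mpr hd
    exact (pow_left_inj₀ zero_le zero_le (by have := hp.two_le; omega)).mp
      ((Galois.Flat.valuation_sub_one_pow hp hA hprim).trans hz.symm)
  have hp3 : 3 ≤ p := by have := hp.two_le; omega
  -- two cases
  by_cases hcase : v (b ^ p - 1) ≤ v (p : Qbar) ^ 2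
  · obtain ⟨η, hη, hclose⟩ := exists_root_close hp hp2 hA hζ hcase
    obtain ⟨n, -, hn⟩ := hζ.eq_pow_of_pow_eq_one hη
    obtain ⟨j, hj⟩ : ∃ j : ZMod p, ψ j = η := ⟨n, (hψnat n).trans hn⟩
    refine ⟨x + j • P, hne j, Or.inl fun σ hσ => ?_⟩
    obtain ⟨d, hd⟩ : ∃ d, d = κ σ + α σ * j - j := ⟨_, rfl⟩
    have hσηb : σ (η * b) = ψ d * (η * b) := by
      rw [map_mul, ← hj, hαψ σ hσ, hσb σ hσ, ← mul_assoc, ← mul_assoc, ← AddChar.map_add_eq_mul,
        ← AddChar.map_add_eq_mul, hd]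
      congr 2
      ring
    have hd0 : d = 0 := by
      by_contra hd0
      have hlt : v (σ (η * b) - η * b) < v (ζ - 1) := by
        rw [show σ (η * b) - η * b = (σ (η * b) - 1) - (η * b - 1) by ring]
        refine lt_of_le_of_lt (v.map_sub _ _) (max_lt ?_ hclose)
        rw [show σ (η * b) - 1 = σ (η * b - 1) by rw [map_sub σ (η * b), map_one],
          valuation_map_inertia hσ]
        exact hclose
      have hvη : v η = 1 := (pow_eq_one_iff_of_nonneg zero_le hp.ne_zero).mp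
        (by rw [← map_pow, hη, map_one])
      rw [hσηb, show ψ d * (η * b) - η * b = (ψ d - 1) * (η * b) by ring, map_mul, map_mul,
        hψv d hd0, hvη, hvb, one_mul, mul_one] at hlt
      exact hlt.false
    rw [hact σ hσ, sub_eq_zero.mp (hd ▸ hd0 : κ σ + α σ * j - j = 0)]
  push Not at hcase
  have hr0 : b ^ p - 1 ≠ 0 := fun e => by rw [e, map_zero] at hcase; exact not_lt_zero hcase
  obtain ⟨m, hm⟩ := exists_valuation_eq_zpow_of_mem hp hA hrK hr0
  have hm1 : v (b ^ p - 1) = v (p : Qbar) := by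
    rw [hm, ← zpow_zero (v (p : Qbar))] at hr1
    rw [hm, ← zpow_natCast] at hcase
    have h1 : ¬ m ≤ 0 := fun h => not_le.mpr hr1
      ((Galois.Flat.valuation_zpow_le_zpow_iff hp hA).mpr h)
    have h2 : ¬ ((2 : ℕ) : ℤ) ≤ m := fun h => not_le.mpr hcase
      ((Galois.Flat.valuation_zpow_le_zpow_iff hp hA).mpr h)
    rw [hm, show m = 1 by omega, zpow_one]
  obtain ⟨π, hπdef⟩ : ∃ π, π = b - 1 := ⟨_, rfl⟩
  rw [← hπdef] at hb1
  have hπp : v π ^ p = v (p : Qbar) := by
    obtain ⟨r, hr⟩ := exists_add_pow_prime_eq hp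
      (⟨π, (A.valuation_le_one_iff π).mp hb1.le⟩ : A) 1
    have hr' : (π + 1) ^ p = π ^ p + 1 + (p : Qbar) * π * (r : Qbar) := by
      have := congrArg (Subtype.val : A → Qbar) hr
      simpa using this
    have hbp : π + 1 = b := by rw [hπdef]; ring
    rw [hbp] at hr'
    have hlt : v ((p : Qbar) * π * (r : Qbar)) < v (b ^ p - 1) := by
      rw [hm1, map_mul, map_mul, mul_assoc]
      exact mul_lt_of_lt_one_right (zero_lt_iff.mpr hvp0)
        ((mul_le_of_le_one_right' ((A.valuation_le_one_iff _).mpr r.2)).trans_lt hb1)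
    rw [← map_pow, show π ^ p = (b ^ p - 1) - (p : Qbar) * π * (r : Qbar) by rw [hr']; ring,
      v.map_sub_eq_of_lt_left hlt, hm1]
  have hπ0 : π ≠ 0 := fun e => by rw [e, map_zero, zero_pow hp.ne_zero] at hπp; exact hvp0 hπp.symm
  have hσπ : ∀ σ ∈ I, σ π - π = (ψ (κ σ) - 1) * b := fun σ hσ => by
    rw [hπdef, map_sub, map_one, hσb σ hσ]; ring
  have hdeg : (minpoly (inertiaField A) π).natDegree ≤ p := by
    let T : Finset Qbar := Finset.univ.image fun i : ZMod p => ψ i * b - 1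
    have hπT : π ∈ T := Finset.mem_image.mpr ⟨0, Finset.mem_univ _, by
      rw [AddChar.map_zero_eq_one, one_mul, hπdef]⟩
    refine (natDegree_minpoly_le_card T hπT fun σ hσ s hs => ?_).trans
      (Finset.card_image_le.trans (by simp))
    obtain ⟨i, -, rfl⟩ := Finset.mem_image.mp hs
    refine Finset.mem_image.mpr ⟨α σ * i + κ σ, Finset.mem_univ _, ?_⟩
    rw [map_sub, map_one, map_mul, hαψ σ hσ, hσb σ hσ, AddChar.map_add_eq_mul, mul_assoc]
  refine ⟨x, by simpa using hne 0, Or.inr ⟨π, ⟨hπp, le_antisymm hdeg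
    (le_natDegree_minpoly hp hA hπp), σ₁, hσ₁, ?_⟩, fun σ hσ hσπ' => ?_⟩⟩
  · have hq : v (σ₁ π / π - 1) = v (ζ - 1) / v π := by
      rw [show σ₁ π / π - 1 = (σ₁ π - π) / π by rw [sub_div, div_self hπ0], hσπ σ₁ hσ₁, map_div₀,
        map_mul, hψv _ hκ₁, hvb, mul_one]
    have hqp : v (σ₁ π / π - 1) ^ p = v (ζ - 1) := by
      rw [hq, div_pow, hπp, div_eq_iff hvp0, ← hz, ← pow_succ']
      congr 1
      omega
    refine ⟨(pow_lt_one_iff_of_nonneg zero_le hp.ne_zero).mp (by rw [hqp]; exact hz1), ?_⟩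
    rw [hqp, ← hz]
    exact pow_lt_self_of_lt_one₀ hz0 hz1 (by omega)
  · have h := hσπ σ hσ
    rw [hσπ', sub_self, eq_comm, mul_eq_zero, sub_eq_zero] at h
    have hb0 : b ≠ 0 := fun e => by rw [e, map_zero] at hvb; exact zero_ne_one hvb
    have h0 : κ σ = 0 := hψinj (by rw [AddChar.map_zero_eq_one]; exact h.resolve_right hb0)
    rw [hκ σ hσ, h0, zero_smul, add_zero]

end FermatLib.MazurP.OddP

end
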