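import Fermat.Agent.Extra.S39.Defs
import Fermat.Agent.Extra.S39.Kummer
import Fermat.Agent.EC.AtPIrreducible
import Fermat.Agent.EC.FlatGood
import Fermat.Agent.EC.FlatMult
import Fermat.Agent.MLT.ResidualCurve
import Fermat.Agent.MLT.Ordinary.Basic

/-!
# The local shape of `E[p]` at a semistable, peu ramifié prime

Supersingular reduction: a power of a tame generator of level two acts as `-1` and has trivial
determinant. Ordinary or multiplicative reduction: `E[p]` is finite flat and an extension of an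
unramified module by one on which inertia acts by the cyclotomic character.
-/

set_option autoImplicit false

noncomputable section

namespace FermatLib.MazurP.OddP

open FermatLib.AtP WeierstrassCurve WeierstrassCurve.Affine WeierstrassCurve.Affine.Point
open scoped WeierstrassCurve.Affine

local notation "Qbar" => AlgebraicClosure ℚ
local notation "Γℚ" => (AlgebraicClosure ℚ ≃ₐ[ℚ] AlgebraicClosure ℚ)

variable (W : WeierstrassCurve ℤ) {p : ℕ} [Fact p.Prime] {A : ValuationSubring Qbar}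

/-- In the transitive case some power of the generator is `-1`. -/
theorem exists_pow_smul_eq_neg [(W.map (Int.castRingHom ℚ)).IsElliptic] (hp2 : p ≠ 2) {τ : Γℚ}
    (htr : ∀ P Q : Pts W, p • P = 0 → p • Q = 0 → P ≠ 0 → Q ≠ 0 →
      ∃ k : ℕ, (τ ^ k) • P = Q ∨ (τ ^ k) • P = -Q) :
    ∃ k : ℕ, ∀ y : Tors W p, (τ ^ k) • y = -y := by
  classical
  have hp : p.Prime := Fact.out
  have htr' : ∀ y z : Tors W p, y ≠ 0 → z ≠ 0 →
      ∃ k : ℕ, (τ ^ k) • y = z ∨ (τ ^ k) • y = -z := fun y z hy hz => by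
    obtain ⟨k, hk⟩ := htr y z ((mem_tors_iff W).1 y.2) ((mem_tors_iff W).1 z.2)
      (fun e => hy (Subtype.ext e)) (fun e => hz (Subtype.ext e))
    exact ⟨k, hk.imp (fun e => Subtype.ext e) (fun e => Subtype.ext e)⟩
  have hcard : Nat.card (Tors W p) = p ^ 2 := natCard_tors W
  have : Finite (Tors W p) := Nat.finite_of_card_ne_zero (hcard ▸ pow_ne_zero 2 hp.ne_zero)
  have : Nontrivial (Tors W p) := Finite.one_lt_card_iff_nontrivial.1
    (hcard ▸ Nat.one_lt_pow two_ne_zero hp.one_lt)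
  obtain ⟨y₀, hy₀⟩ := exists_ne (0 : Tors W p)
  by_cases hA' : ∃ k : ℕ, (τ ^ k) • y₀ = -y₀
  · obtain ⟨k, hk⟩ := hA'
    refine ⟨k, fun y => ?_⟩
    by_cases hy : y = 0
    · rw [hy, smul_zero, _root_.neg_zero]
    obtain ⟨j, hj⟩ := htr' y₀ y hy₀ hy
    have hc : (τ ^ k) • ((τ ^ j) • y₀) = -((τ ^ j) • y₀) := by
      rw [smul_smul, ← pow_add, add_comm, pow_add, mul_smul, hk, smul_neg]
    rcases hj with e | e
    · rwa [e] at hc
    · rw [e, smul_neg, neg_neg] at hc
      exact neg_eq_iff_eq_neg.mp hc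
  push Not at hA'
  exfalso
  obtain ⟨a, b, hab, heq⟩ := Finite.exists_ne_map_eq_of_infinite fun k : ℕ => (τ ^ k) • y₀
  have hper : ∃ d, 0 < d ∧ (τ ^ d) • y₀ = y₀ := by
    wlog hlt : a < b generalizing a b
    · exact this b a hab.symm heq.symm (by omega)
    refine ⟨b - a, by omega, smul_left_cancel (τ ^ a) ?_⟩
    rw [smul_smul, ← pow_add, Nat.add_sub_cancel' hlt.le]
    exact heq.symm
  obtain ⟨hd0, hd⟩ := Nat.find_spec hper
  set d := Nat.find hper
  have hmod : ∀ k : ℕ, (τ ^ k) • y₀ = (τ ^ (k % d)) • y₀ := fun k => by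
    conv_lhs => rw [← Nat.mod_add_div k d, pow_add, mul_smul]
    congr 1
    induction k / d with
    | zero => rw [mul_zero, pow_zero, one_smul]
    | succ m ih => rw [Nat.mul_succ, pow_add, mul_smul, hd, ih]
  have hinj : ∀ i j : ℕ, i < d → j < d → (τ ^ i) • y₀ = (τ ^ j) • y₀ → i = j := by
    intro i j hi hj h
    wlog hij : i ≤ j generalizing i j
    · exact (this j i hj hi h.symm (by omega)).symm
    by_contra hne
    refine Nat.find_min hper (show j - i < d by omega) ⟨by omega, smul_left_cancel (τ ^ i) ?_⟩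
    rw [smul_smul, ← pow_add, Nat.add_sub_cancel' hij]
    exact h.symm
  have hneg : ∀ i j : ℕ, j < d → (τ ^ i) • y₀ ≠ -((τ ^ j) • y₀) := by
    intro i j hj h
    refine hA' (d - j + i) ?_
    rw [pow_add, mul_smul, h, smul_neg, smul_smul, ← pow_add, Nat.sub_add_cancel hj.le, hd]
  let f : Bool × Fin d → {y : Tors W p // y ≠ 0} := fun q =>
    ⟨if q.1 then (τ ^ (q.2 : ℕ)) • y₀ else -((τ ^ (q.2 : ℕ)) • y₀), by
      split
      · exact (smul_ne_zero_iff_ne _).2 hy₀
      · exact neg_ne_zero.2 ((smul_ne_zero_iff_ne _).2 hy₀)⟩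
  have hbij : Function.Bijective f := by
    refine ⟨fun q r h => ?_, fun y => ?_⟩
    · obtain ⟨e, i⟩ := q
      obtain ⟨e', j⟩ := r
      have h' := congrArg Subtype.val h
      cases e <;> cases e' <;>
        simp only [f, if_true, Bool.false_eq_true, if_false] at h'
      · rw [Fin.ext (hinj _ _ i.2 j.2 (neg_injective h'))]
      · exact absurd h'.symm (hneg _ _ i.2)
      · exact absurd h' (hneg _ _ j.2)
      · rw [Fin.ext (hinj _ _ i.2 j.2 h')]
    · obtain ⟨k, hk⟩ := htr' y₀ y.1 hy₀ y.2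
      rw [hmod k] at hk
      rcases hk with e | e
      · exact ⟨(true, ⟨k % d, Nat.mod_lt _ hd0⟩), Subtype.ext (by simp [f, e])⟩
      · exact ⟨(false, ⟨k % d, Nat.mod_lt _ hd0⟩), Subtype.ext (by simp [f, e])⟩
  have hcount : 2 * d + 1 = p ^ 2 := by
    have h1 := Nat.card_eq_of_bijective f hbij
    have : Fintype (Tors W p) := Fintype.ofFinite _
    rw [Nat.card_prod, Nat.card_fin, Nat.card_eq_fintype_card (α := Bool), Fintype.card_bool,
      Nat.card_eq_fintype_card, Fintype.card_subtype_compl, Fintype.card_subtype_eq,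
      ← Nat.card_eq_fintype_card, hcard] at h1
    have := Nat.one_le_pow 2 p hp.pos
    omega
  obtain ⟨e, he⟩ := hp.odd_of_ne_two hp2
  obtain ⟨m, hm⟩ := Nat.even_mul_succ_self e
  have hde : d = 2 * (2 * m) := by rw [he] at hcount; nlinarith
  obtain ⟨s, hs⟩ : ∃ s, s = τ ^ (2 * m) := ⟨_, rfl⟩
  have hss : s • (s • y₀) = y₀ := by
    rw [smul_smul, hs, ← pow_add, ← two_mul, ← hde, hd]
  have hR : s • (s • y₀ + y₀) = s • y₀ + y₀ := by rw [smul_add, hss, add_comm]
  by_cases hR0 : s • y₀ + y₀ = 0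
  · exact hA' (2 * m) (hs ▸ eq_neg_of_add_eq_zero_left hR0)
  obtain ⟨j, hj⟩ := htr' _ y₀ hR0 hy₀
  have hfix : s • y₀ = y₀ := by
    have hc : s • ((τ ^ j) • (s • y₀ + y₀)) = (τ ^ j) • (s • y₀ + y₀) := by
      conv_rhs => rw [← hR]
      rw [smul_smul, smul_smul, hs, ← pow_add, ← pow_add, add_comm (2 * m) j]
    rcases hj with h | h
    · rwa [h] at hc
    · rw [h, smul_neg] at hc
      exact neg_injective hc
  exact (show (2 * m) ≠ 0 by omega) (hinj (2 * m) 0 (by omega) hd0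
    (by rw [pow_zero, one_smul, ← hs, hfix]))

/-- The determinant of an element acting as `-1` is trivial, so it fixes the roots of unity. -/
theorem apply_eq_of_smul_eq_neg (hΔ : W.Δ ≠ 0) {s : Γℚ} (hs : ∀ y : Tors W p, s • y = -y)
    {μ : Qbar} (hμ : μ ^ p = 1) : s μ = μ := by
  have : Fact (1 < p) := ⟨(Fact.out : p.Prime).one_lt⟩
  have h1 : (MLT.curveResidualRep W hΔ p).ρ s = (-1 : ZMod p) • LinearMap.id :=
    LinearMap.ext fun y => by
      rw [LinearMap.smul_apply, LinearMap.id_apply, neg_one_smul]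
      exact hs y
  have h2 := MLT.curveResidualRep_det W hΔ p s
  rw [h1, LinearMap.det_smul, LinearMap.det_id, mul_one,
    (MLT.curveResidualRep W hΔ p).finrank_eq, neg_one_sq] at h2
  rw [Mazur.apply_eq_pow_cycloChar p s hμ, ← h2, ZMod.val_one, pow_one]

/-- Inertia acts on a stable line with unramified quotient by the cyclotomic character. -/
theorem smul_eq_natCast_smul (hΔ : W.Δ ≠ 0) {P x : Tors W p} (hP : P ≠ 0)
    (hx : ∀ c : ZMod p, x ≠ c • P) {σ : Γℚ} {c d : ZMod p} (hσP : σ • P = c • P)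
    (hσx : σ • x = x + d • P) {a : ℕ} (ha : ∀ μ : Qbar, μ ^ p = 1 → σ μ = μ ^ a) :
    σ • P = (a : ZMod p) • P := by
  obtain ⟨ζ, hζ⟩ := Mazur.exists_isPrimitiveRoot_qbar p
  let V := (MLT.curveResidualRep W hΔ p).V
  have hli : LinearIndependent (ZMod p) (![P, x] : Fin 2 → Tors W p) := by
    refine linearIndependent_fin2.2 ⟨?_, fun e he => ?_⟩
    · simpa using fun e : x = 0 => hx 0 (by rw [e, zero_smul])
    · simp only [Matrix.cons_val_one, Matrix.cons_val_zero] at he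
      rcases eq_or_ne e 0 with rfl | hne
      · exact hP (by rw [← he, zero_smul])
      · exact hx e⁻¹ (by rw [← he, smul_smul, inv_mul_cancel₀ hne, one_smul])
  have h2 : Fintype.card (Fin 2) = Module.finrank (ZMod p) (Tors W p) := by
    rw [Fintype.card_fin]
    exact (MLT.curveResidualRep W hΔ p).finrank_eq.symm
  let b : Module.Basis (Fin 2) (ZMod p) V := basisOfLinearIndependentOfCardEqFinrank hli h2
  have hb0 : b 0 = P := congr_fun (coe_basisOfLinearIndependentOfCardEqFinrank hli h2) 0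
  have hb1 : b 1 = x := congr_fun (coe_basisOfLinearIndependentOfCardEqFinrank hli h2) 1
  have hdet := MLT.det_eq_mul_of_triangular b ((MLT.curveResidualRep W hΔ p).ρ σ) (x := c) (z := 1)
    (by rw [hb0]; exact hσP) (Submodule.mem_span_singleton.2 ⟨d, by
      rw [hb0, hb1]
      show d • P = σ • x - (1 : ZMod p) • x
      rw [one_smul, hσx, add_sub_cancel_left]⟩)
  rw [MLT.curveResidualRep_det, mul_one,
    Mazur.cycloChar_eq_of_apply_eq p hζ σ (ha ζ hζ.pow_eq_one)] at hdet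
  rw [hσP, hdet]

/-- `E[p]` is finite flat at a semistable, peu ramifié prime. -/
theorem hasModelAt_tors [(W.map (Int.castRingHom ℚ)).IsElliptic] (hΔ : W.Δ ≠ 0) (hp2 : p ≠ 2)
    (hsemi : (p : ℤ) ∣ W.Δ → ¬ (p : ℤ) ∣ W.c₄)
    (hfin : (p : ℤ) ∣ padicValRat p (W.map (Int.castRingHom ℚ)).Δ) (hA : A.LiesOverPrime p) :
    Galois.FlatModel.HasModelAt p (Tors W p) fun (σ : Γℚ) (y : Tors W p) => σ • y := by
  have hp : p.Prime := Fact.out
  by_cases hd : (p : ℤ) ∣ W.Δ
  · rw [map_Δ, eq_intCast, padicValRat.of_int, Int.natCast_dvd_natCast] at hfin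
    obtain ⟨j, hj⟩ := hfin
    obtain ⟨u, hu⟩ := (padicValInt_dvd_iff (p := p) (padicValInt p W.Δ) W.Δ).2 (Or.inr le_rfl)
    refine EC.Flat.hasModelAt_torsionBy_intCurve_of_multiplicative hp
      (by have := hp.two_le; omega) hd (hsemi hd) (j := j) (u := u) (fun h => ?_) (by rw [← hj]; exact hu)
    obtain ⟨w, hw⟩ := h
    have := (padicValInt_dvd_iff (p := p) (padicValInt p W.Δ + 1) W.Δ).1
      ⟨w, by rw [pow_succ, mul_assoc, ← hw]; exact hu⟩
    omega
  · refine EC.Flat.hasModelAt_torsionBy_of_good hp hA (EC.integralAt_intCurve W A) ?_ hp.ne_zero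
    rw [EC.res_Δ_intCurve]
    exact (EC.res_intCast_ne_zero_iff A hp hA _).mpr hd

end FermatLib.MazurP.OddP

namespace FermatLib.MazurP.OddP

open FermatLib.AtP
open scoped WeierstrassCurve.Affine

/-- **The local shape of `E[p]` at a semistable, peu ramifié prime.** -/
theorem localInputHolds : LocalInputHolds := by
  intro W hΔ p hp hp2 hsemi hfin A hA
  have : Fact p.Prime := ⟨hp⟩
  have := MLT.isElliptic_map_rat hΔ
  by_cases hprop : KernelProper W A p
  swap
  · have hgood : ¬ (p : ℤ) ∣ W.Δ := fun hd =>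
      hprop (kernelProper_of_mult W hA hp2 hd (hsemi hd))
    obtain ⟨τ, hτ, htr, -⟩ := tameLevelTwoAt_of_odd W hA hp2 hgood hprop
    obtain ⟨k, hk⟩ := exists_pow_smul_eq_neg W hp2 htr
    exact Or.inr ⟨τ ^ k, pow_mem hτ k, fun ζ hζ => apply_eq_of_smul_eq_neg W hΔ hk hζ, hk⟩
  have hgm : GoodOrOddMult W p := by
    by_cases hd : (p : ℤ) ∣ W.Δ
    · exact Or.inr ⟨hp2, hsemi hd⟩
    · exact Or.inl hd
  obtain ⟨z, hz0, hz1, hzp, hzk, hgen⟩ := exists_kerPt_generators W hgm hA hprop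
  have hpz : p • z 1 = 0 := (hzp 0).trans hz0
  obtain ⟨P, hPdef⟩ : ∃ P : Tors W p, (P : Pts W) = z 1 :=
    ⟨⟨z 1, (mem_tors_iff W).2 hpz⟩, rfl⟩
  have hP0 : P ≠ 0 := fun e => hz1 (by rw [← hPdef, e]; rfl)
  have hline : ∀ y : Tors W p, IsKerPt A.valuation (y : Pts W) → ∃ c : ZMod p, y = c • P := by
    intro y hy
    obtain ⟨k, hk⟩ := hgen 1 y (by rw [pow_one]; exact (mem_tors_iff W).1 y.2) hy
    exact ⟨(k : ZMod p), Subtype.ext (by rw [Nat.cast_smul_eq_nsmul, hk, ← hPdef]; rfl)⟩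
  obtain ⟨x₀, hx₀, hx₀k⟩ := hprop
  obtain ⟨x, hxdef⟩ : ∃ x : Tors W p, (x : Pts W) = x₀ := ⟨⟨x₀, (mem_tors_iff W).2 hx₀⟩, rfl⟩
  have hx : ∀ c : ZMod p, x ≠ c • P := fun c hc => hx₀k (by
    rw [← hxdef, hc, ← ZMod.natCast_zmod_val c, Nat.cast_smul_eq_nsmul]
    exact (kerSubgroup (integralCoeffs_bar W)).nsmul_mem (hPdef ▸ hzk 1) c.val)
  have hker : ∀ σ ∈ A.inertiaSubgroupIn ℚ, ∀ y : Tors W p, ∃ c : ZMod p, σ • y = y + c • P := by
    intro σ hσ y
    obtain ⟨c, hc⟩ := hline (σ • y - y)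
      (isKerPt_inertia_sub W hgm hA hσ (n := 1) (by rw [pow_one]; exact (mem_tors_iff W).1 y.2))
    exact ⟨c, by rw [← hc]; abel⟩
  refine Or.inl (exists_peuPoint_of_flat hp2 hA (hasModelAt_tors W hΔ hp2 hsemi hfin hA) hP0 hx
    (fun σ hσ a ha => ?_) fun σ hσ => hker σ hσ x)
  obtain ⟨c, hc⟩ := hker σ hσ P
  obtain ⟨d, hd⟩ := hker σ hσ x
  exact smul_eq_natCast_smul W hΔ hP0 hx (c := 1 + c)
    (by rw [add_smul, one_smul]; exact hc) hd ha

end FermatLib.MazurP.OddP

end
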