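import Fermat.Agent.Igusa.MonoTwistClass

/-!
# No eigenclasses of order `p` among twist classes

A twist class `x` killed by `p` with split components is trivial if an automorphism `g` fixing both
sheets multiplies it by a natural number `c` and some `z` with `z ^ (p - 1) = p · unit` is
multiplied by `g` by a factor not congruent to `c`. The case `c = 1` is `eq_zero_of_fixed`; here
`c = p - 1` is used, with `g` fixing the `p`-th roots of unity.
-/

set_option autoImplicit false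
set_option linter.style.haveILetI false
set_option linter.unusedSectionVars false

noncomputable section

open AlgebraicCurve

namespace FermatLib.Igusa.Mono

universe uL uF uk uKb

namespace MonoDatum

variable {L : Type uL} {k : Type uk} [Field L] [Field k] {A : ValuationSubring L} {π : A →+* k}
  {F : Type uF} {Kb : Type uKb} [Field F] [Algebra L F] [Field Kb] [Algebra k Kb] {q : ℕ}
  {M : MonoDatum π F Kb q}

/-- The `n`-th multiple of a twist. -/
def Twist.mulBy {d : ℕ} (T : M.Twist d) (n : ℕ) : M.Twist d where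
  D := n • T.D
  g := T.g ^ n
  g_ne := pow_ne_zero _ T.g_ne
  div v := by rw [ord_pow, ← T.div, Finsupp.smul_apply, nsmul_eq_mul]; ring
  degree_D := by rw [map_nsmul, T.degree_D, nsmul_zero]
  g_int := T.g_int.pow n
  c₁ := T.c₁ ^ n
  c₂ := T.c₂ ^ n
  c₁_ne := pow_ne_zero _ T.c₁_ne
  c₂_ne := pow_ne_zero _ T.c₂_ne
  rd_g := by rw [rd₂_pow T.g_int, T.rd_g, map_pow, map_pow]; rfl

theorem Twist.cls_mulBy {d : ℕ} (T : M.Twist d) (n : ℕ) : (T.mulBy n).cls = n • T.cls :=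
  (congrArg Pic0.mk (Subtype.ext rfl : (⟨n • T.D, (T.mulBy n).degree_D⟩ :
    Divisor.degZero (K := L) (F := F)) = n • ⟨T.D, T.degree_D⟩)).trans
      (map_nsmul (QuotientAddGroup.mk' _) _ _)

/-- An automorphism multiplying the class by `n` moves the divisor to `n` times itself, up to a
principal divisor. -/
theorem Twist.isPrincipal_of_smul_cls_eq {d : ℕ} (T : M.Twist d) {g : SemilinearAut L F} {n : ℕ}
    (h : g • T.cls = n • T.cls) : Divisor.IsPrincipal (g • T.D - n • T.D) := by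
  have h' : Pic0.mk (SemilinearAut.degZeroSMulHom g ⟨T.D, T.degree_D⟩ -
      ⟨n • T.D, (T.mulBy n).degree_D⟩) = 0 := by
    rw [← T.cls_mulBy n, ← sub_eq_zero] at h
    exact h
  exact (QuotientAddGroup.eq_zero_iff _).mp h'

/-- An automorphism fixing both sheets and a function with the difference of the divisors move
one twisted space into the other. -/
theorem Fixes.mem_space_of_div {g : SemilinearAut L F} (hg : M.Fixes g) (C : M.Chart)
    (hc : SemilinearAut.baseAut g C.c = C.c) {D D' : Divisor L F} {u : F}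
    (hu : ∀ v, (g • D - D') v = v.ord u) {a b : ℕ} {f : F} (hf : f ∈ C.space D a b) :
    u * (g • f) ∈ C.space D' a b := by
  rw [C.mem_space] at hf ⊢
  have h := hg.smul_mem_rr hf
  rw [smul_mul', smul_pow', hg.smul_chart C hc] at h
  have hu' : u ∈ riemannRochSpace (D' - g • D) := by
    rw [mem_riemannRochSpace_iff]
    intro v
    right
    have := hu v
    rw [Finsupp.sub_apply] at this ⊢
    omega
  have := mul_mem_riemannRochSpace hu' h
  rwa [mul_left_comm,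
    show D' - g • D + (g • D + (a + b) • M.Px) = D' + (a + b) • M.Px by abel] at this

variable [IsAlgClosed k]

/-- A twist with reductions `1` has equal node values on the two sheets. -/
theorem Twist.diag_of_rd_one {p : ℕ} [hp : Fact p.Prime] [CharP k p] (T : M.Twist p)
    (hg : rd₂ M.s₁ M.s₂ T.g = 1) :
    ∀ z ∈ M.nodes, ∃ m, ∃ f ∈ M.twistLevel T.D m,
      valAt z.1 f.1 ≠ 0 ∧ valAt z.1 f.1 = valAt z.2 f.2 := by
  have hp1 : 1 ≤ p := hp.out.one_lt.le
  intro z hz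
  obtain ⟨N, hN, hlev⟩ := exists_twist_level T hp1
  obtain ⟨l, -, hex⟩ := hlev N le_rfl
  obtain ⟨f, hf, hf0⟩ := hex z hz
  refine ⟨N, f, hf, hf0, frobenius_inj k p ?_⟩
  obtain ⟨h1, h2⟩ := T.mem_rr hp1 hN hf
  have hgl := (M.mem_gl_one.mp (T.pow_smul_mem_gl hp1 hN hf)).2.2 z hz
  have hr1 := rrSpace_nsmul_le_reg M.P₁ N h1
  have hr2 := rrSpace_nsmul_le_reg M.P₂ N h2
  have hc : T.c₁ = 1 ∧ T.c₂ = 1 := by
    have := T.rd_g.symm.trans hg
    exact ⟨(algebraMap k Kb).injective (by simpa using congrArg Prod.fst this),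
      (algebraMap k Kb).injective (by simpa using congrArg Prod.snd this)⟩
  simp only [hc.1, hc.2, one_smul] at hgl
  rwa [valAt_pow_reg M.rrK.deg_one hr1 (M.P₁_of_node hz).1,
    valAt_pow_reg M.rrK.deg_one hr2 ((M.supp _).mp (M.P₁_of_node hz).2)] at hgl

/-- In large level the two glued spaces share only the constants. -/
theorem exists_finrank_glue_inf (M : MonoDatum π F Kb q) :
    ∃ N : ℕ, ∀ (C : M.Chart) (n : ℕ), N ≤ n →
      Module.finrank k ↥(C.glue n 0 ⊓ C.glue 0 n) = 1 ∧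
        (1 : Kb × Kb) ∈ C.glue n 0 ∧ (1 : Kb × Kb) ∈ C.glue 0 n := by
  obtain ⟨N, -, hN⟩ := M.exists_level_glue
  refine ⟨N, fun C n hn => ?_⟩
  have hgl1 : ∀ a b, N ≤ a + b → (1 : Kb × Kb) ∈ C.glue a b := fun a b hab => by
    rw [← hN C a b hab]
    exact ⟨1, M.one_mem_space C a b, integral₂_one, rd₂_one⟩
  have : C.glue n 0 ⊓ C.glue 0 n = k ∙ (1 : Kb × Kb) := by
    refine le_antisymm (fun f hf => ?_) ?_
    · obtain ⟨a, b, rfl, hab⟩ := C.glue_inter hf.1 hf.2
      rw [← hab M.nodes_nonempty, show ((algebraMap k Kb a, algebraMap k Kb a) : Kb × Kb) =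
        a • (1 : Kb × Kb) by simp [Algebra.algebraMap_eq_smul_one, Prod.ext_iff]]
      exact Submodule.smul_mem _ a (Submodule.mem_span_singleton_self _)
    · rw [Submodule.span_singleton_le_iff_mem]
      exact ⟨hgl1 n 0 (by omega), hgl1 0 n (by omega)⟩
  exact ⟨by rw [this, finrank_span_singleton one_ne_zero], hgl1 n 0 (by omega),
    hgl1 0 n (by omega)⟩

variable [IsAlgClosed L]

/-- The critical level: a root `u` of `(g • G) / G ^ c` forces the multiplier of the constant of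
the obstruction to be congruent to `c`. -/
theorem Twist.ratio_eq_of_eigen {p : ℕ} [hp : Fact p.Prime] [CharP k p] (T : M.Twist p)
    (hg : rd₂ M.s₁ M.s₂ T.g = 1) {g : SemilinearAut L F} (hfix : M.Fixes g) {c : ℕ}
    (hck : (c : k) ≠ 0) (hclass : Divisor.IsPrincipal (g • T.D - c • T.D))
    (hbot : riemannRochSpace (c • T.D) = ⊥) (C : M.Chart)
    (hC : SemilinearAut.baseAut g C.c = C.c) {N : ℕ} {a θ : A} {h h' r : F} (ha : (a : L) ≠ 0)
    (hπa : π a = 0) (hh : h ∈ C.space T.D N 0) (hh' : h' ∈ C.space T.D 0 N)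
    (hhi : Integral₂ M.s₁ M.s₂ h) (hhi' : Integral₂ M.s₁ M.s₂ h')
    (hri : Integral₂ M.s₁ M.s₂ r) (hhr : rd₂ M.s₁ M.s₂ h = 1) (hhr' : rd₂ M.s₁ M.s₂ h' = 1)
    (hdiff : h' - h = (a : L) • r) (hrglue : rd₂ M.s₁ M.s₂ r ∈ C.glue N N)
    (hrn : rd₂ M.s₁ M.s₂ r ∉ C.glue N 0 ⊔ C.glue 0 N)
    (hσa : SemilinearAut.baseAut g (a : L) = (θ : L) * a) :
    π θ = (c : k) := by
  haveI : CharP Kb p := charP_of_injective_algebraMap (algebraMap k Kb).injective p
  have hp1 : 1 ≤ p := hp.out.one_lt.le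
  have hgF : T.g ≠ 0 := T.g_ne
  have hgG : g • T.g ≠ 0 := (smul_ne_zero_iff_ne g).mpr hgF
  -- the root of `g • G / G ^ c`
  obtain ⟨u₀, hu₀, hu₀D⟩ := hclass
  set G₁ := (g • T.g) * (T.g ^ c)⁻¹ with hG₁
  have hG₁0 : G₁ ≠ 0 := mul_ne_zero hgG (inv_ne_zero (pow_ne_zero _ hgF))
  obtain ⟨e, he⟩ := M.rrF.exists_eq_algebraMap (f := u₀ ^ p * G₁⁻¹) (by
    rw [mem_riemannRochSpace_iff]
    intro v
    right
    have h3 := SemilinearAut.ord_smul g (g⁻¹ • v) T.g
    rw [smul_inv_smul] at h3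
    have h4 := hu₀D v
    rw [Finsupp.sub_apply, SemilinearAut.divisor_smul_apply, Finsupp.smul_apply, nsmul_eq_mul]
      at h4
    rw [v.ord_mul (pow_ne_zero _ hu₀) (inv_ne_zero hG₁0), v.ord_inv, ord_pow, hG₁,
      v.ord_mul hgG (inv_ne_zero (pow_ne_zero _ hgF)), v.ord_inv, ord_pow, h3, ← T.div, ← T.div,
      ← h4]
    simp only [Finsupp.coe_zero, Pi.zero_apply]
    ring_nf
    rfl)
  have he0 : e ≠ 0 := fun h0 => by
    rw [h0, map_zero] at he
    exact mul_ne_zero (pow_ne_zero _ hu₀) (inv_ne_zero hG₁0) he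
  obtain ⟨e', he'⟩ := IsAlgClosed.exists_pow_nat_eq e⁻¹ hp.out.pos
  set u := algebraMap L F e' * u₀ with hudef
  have he'0 : algebraMap L F e' ≠ 0 := by
    simp only [ne_eq, map_eq_zero]
    rintro rfl
    rw [zero_pow hp.out.ne_zero] at he'
    exact inv_ne_zero he0 he'.symm
  have hup : u ^ p = G₁ := by
    have h1 : u₀ ^ p = algebraMap L F e * G₁ := by rw [← he, inv_mul_cancel_right₀ hG₁0]
    rw [hudef, mul_pow, ← map_pow, he', h1, ← mul_assoc, ← map_mul, inv_mul_cancel₀ he0, map_one,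
      one_mul]
  have hGc : rd₂ M.s₁ M.s₂ (T.g ^ c) = 1 := by rw [rd₂_pow T.g_int, hg, one_pow]
  have hginv : Integral₂ M.s₁ M.s₂ (T.g ^ c)⁻¹ :=
    ⟨Sheet.inv_mem_of_rd_ne (T.g_int.pow c).1
      (by rw [show M.s₁.rd (T.g ^ c) = 1 from congrArg Prod.fst hGc]; exact one_ne_zero),
     Sheet.inv_mem_of_rd_ne (T.g_int.pow c).2
      (by rw [show M.s₂.rd (T.g ^ c) = 1 from congrArg Prod.snd hGc]; exact one_ne_zero)⟩
  obtain ⟨hui, hur⟩ := rd₂_root_eq_one (M := M) (u := u)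
    (by rw [hup]; exact (hfix.integral T.g_int).mul hginv) (by
      rw [hup, hG₁, rd₂_mul (hfix.integral T.g_int) hginv, hfix.rd_eq T.g_int, hg, one_mul]
      have := rd₂_mul (T.g_int.pow c) hginv
      rwa [mul_inv_cancel₀ (pow_ne_zero _ hgF), rd₂_one, hGc, one_mul, eq_comm] at this)
  have huD : ∀ v, (g • T.D - c • T.D) v = v.ord u := fun v => by
    rw [hu₀D v, hudef, v.ord_mul he'0 hu₀, ord_algebraMap, zero_add]
  -- the spaces of `c • D` in a larger level
  set T' := T.mulBy c with hT'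
  have hg' : rd₂ M.s₁ M.s₂ T'.g = 1 := hGc
  obtain ⟨N₁, hN₁, hlev⟩ := exists_twist_level_eq_one T' hp1 (T'.diag_of_rd_one hg')
  obtain ⟨N₂, hN₂⟩ := M.exists_finrank_glue_inf
  set N' := c * N + N + N₁ + N₂ with hN'
  have hred : ∀ i j, N₁ ≤ i + j → M.red (C.space (c • T.D) i j) = C.glue i j := fun i j hij =>
    C.red_space_eq (fun n hn => hlev n hn) hij
  set V₁ := C.space (c • T.D) N' 0 with hV₁
  set V₂ := C.space (c • T.D) 0 N' with hV₂
  have hinter : V₁ ⊓ V₂ = ⊥ := by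
    rw [eq_bot_iff]
    intro f hf
    rw [← hbot]
    exact M.space_inter C hf.1 hf.2
  haveI := (C.space_equiv (c • T.D) N' 0).1
  haveI := (C.space_equiv (c • T.D) 0 N').1
  obtain ⟨-, -, -, -, hdim⟩ := M.exists_extra C (c • T.D) N' (i := 0) (j := 1)
    (by rw [show C.space (c • T.D) N' 0 ⊓ C.space (c • T.D) 0 N' = ⊥ from hinter]
        exact finrank_bot L F)
    (by rw [hred N' 0 (by omega), hred 0 N' (by omega)]; exact (hN₂ C N' (by omega)).1) rfl
  have hpowmem : ∀ {f : F} {n : ℕ}, f ∈ riemannRochSpace (T.D + n • M.Px) → ∀ i : ℕ,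
      f ^ i ∈ riemannRochSpace (i • T.D + (i * n) • M.Px) := by
    intro f n hf i
    induction i with
    | zero => simpa using one_mem_riemannRochSpace (K := L) (F := F) le_rfl
    | succ i ih =>
      rw [pow_succ, show (i + 1) • T.D + ((i + 1) * n) • M.Px =
        (i • T.D + (i * n) • M.Px) + (T.D + n • M.Px) by
          rw [add_mul, one_mul, add_nsmul, add_nsmul, one_nsmul]; abel]
      exact mul_mem_riemannRochSpace ih hf
  have hhc : h ^ c ∈ V₁ := by
    refine M.space_mono_left C _ (show c * N ≤ N' by omega) ?_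
    rw [C.space_zero] at hh ⊢
    exact hpowmem hh c
  have hhc' : h' ^ c ∈ V₂ := by
    refine M.space_mono_right C _ (show c * N ≤ N' by omega) ?_
    rw [C.mem_space, zero_add] at hh' ⊢
    rw [mul_comm c N, pow_mul, ← mul_pow, mul_comm N c]
    exact hpowmem hh' c
  set Sm := ∑ i ∈ Finset.range c, h' ^ i * h ^ (c - 1 - i) with hSm
  have hSi : Integral₂ M.s₁ M.s₂ Sm := Integral₂.sum _ fun i _ => (hhi'.pow i).mul (hhi.pow _)
  set R := r * Sm with hR
  have hRi : Integral₂ M.s₁ M.s₂ R := hri.mul hSi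
  have hRdiff : h' ^ c - h ^ c = (a : L) • R := by
    rw [hR, ← smul_mul_assoc, ← hdiff, ← geom_sum₂_mul]; ring
  have hRr : rd₂ M.s₁ M.s₂ R = (c : k) • rd₂ M.s₁ M.s₂ r := by
    rw [hR, rd₂_mul hri hSi, hSm, rd₂_sum _ _ fun i _ => (hhi'.pow i).mul (hhi.pow _)]
    simp only [fun i => rd₂_mul (hhi'.pow i) (hhi.pow (c - 1 - i)), rd₂_pow hhi', rd₂_pow hhi,
      hhr', hhr, one_pow, mul_one, Finset.sum_const, Finset.card_range, nsmul_one]
    rw [mul_comm, ← nsmul_eq_mul, ← Nat.cast_smul_eq_nsmul k]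
  have hRmem : R ∈ V₁ ⊔ V₂ := by
    rw [← inv_smul_smul₀ ha R, ← hRdiff]
    exact Submodule.smul_mem _ _
      (Submodule.sub_mem _ (Submodule.mem_sup_right hhc') (Submodule.mem_sup_left hhc))
  have hnot : rd₂ M.s₁ M.s₂ r ∉ M.red V₁ ⊔ M.red V₂ := by
    rw [hV₁, hV₂, hred N' 0 (by omega), hred 0 N' (by omega)]
    intro hmem
    obtain ⟨f₁, hf₁, f₂, hf₂, hsum⟩ := Submodule.mem_sup.mp hmem
    obtain ⟨g1, g2⟩ := C.glue_split hrglue hf₁ hf₂ hsum.symm
    exact hrn (hsum ▸ Submodule.add_mem_sup g1 g2)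
  -- the moved pair
  set h₁ := u * (g • h) with hh₁
  set h₁' := u * (g • h') with hh₁'
  set r₁ := u * (g • r) with hr₁
  have h₁i : Integral₂ M.s₁ M.s₂ h₁ := hui.mul (hfix.integral hhi)
  have r₁i : Integral₂ M.s₁ M.s₂ r₁ := hui.mul (hfix.integral hri)
  have hh₁m : h₁ ∈ V₁ :=
    M.space_mono_left C _ (show N ≤ N' by omega) (hfix.mem_space_of_div C hC huD hh)
  have hh₁m' : h₁' ∈ V₂ :=
    M.space_mono_right C _ (show N ≤ N' by omega) (hfix.mem_space_of_div C hC huD hh')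
  have hrr₁ : rd₂ M.s₁ M.s₂ r₁ = rd₂ M.s₁ M.s₂ r := by
    rw [hr₁, rd₂_mul hui (hfix.integral hri), hur, one_mul, hfix.rd_eq hri]
  have hdiff₁ : h₁' - h₁ = ((θ : L) * a) • r₁ := by
    rw [hh₁', hh₁, ← mul_sub, ← smul_sub, hdiff, Algebra.smul_def, smul_mul',
      SemilinearAut.smul_algebraMap, hσa, hr₁, Algebra.smul_def]
    ring
  set W := (θ : L) • r₁ - R with hW
  have hWa : (a : L) • W = (h₁' - h₁) - (h' ^ c - h ^ c) := by
    rw [hW, smul_sub, smul_smul, mul_comm, hdiff₁, hRdiff]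
  have hWmem : W ∈ V₁ ⊔ V₂ := by
    rw [← inv_smul_smul₀ ha W, hWa]
    exact Submodule.smul_mem _ _ (Submodule.sub_mem _
      (Submodule.sub_mem _ (Submodule.mem_sup_right hh₁m') (Submodule.mem_sup_left hh₁m))
      (Submodule.sub_mem _ (Submodule.mem_sup_right hhc') (Submodule.mem_sup_left hhc)))
  have hWi : Integral₂ M.s₁ M.s₂ W := (r₁i.smul θ.2).sub hRi
  obtain ⟨hdec, -⟩ := exists_decomposition M.π_surjective M.π_eq_zero V₁ V₂ hRmem hRi
    (by
      show rd₂ M.s₁ M.s₂ R ∉ M.red V₁ ⊔ M.red V₂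
      rw [hRr, Submodule.smul_mem_iff _ hck]
      exact hnot) hdim
  obtain ⟨l, u₁, u₂, hu₁, hu₂, hu₁i, hu₂i, hWeq, -⟩ := hdec W hWmem hWi
  -- residually
  have hl : π θ - (c : k) = π l * (c : k) := by
    have h1 := congrArg (rd₂ M.s₁ M.s₂) hWeq
    rw [hW, rd₂_sub (r₁i.smul θ.2) hRi, rd₂_smul θ.2 r₁i, hrr₁,
      rd₂_add ((hRi.smul l.2).add hu₁i) hu₂i, rd₂_add (hRi.smul l.2) hu₁i,
      rd₂_smul l.2 hRi, hRr, smul_smul] at h1
    by_contra hne
    apply hnot
    have h2 : (π θ - (c : k) - π l * (c : k)) • rd₂ M.s₁ M.s₂ r =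
        rd₂ M.s₁ M.s₂ u₁ + rd₂ M.s₁ M.s₂ u₂ := by
      rw [sub_smul, sub_smul, h1]
      abel
    rw [← inv_smul_smul₀ (sub_ne_zero.mpr hne) (rd₂ M.s₁ M.s₂ r), h2]
    exact Submodule.smul_mem _ _ (Submodule.add_mem_sup
      (rd₂_mem_redSpace M.π_surjective hu₁ hu₁i) (rd₂_mem_redSpace M.π_surjective hu₂ hu₂i))
  -- the parts with poles at infinity
  have hkey : (l : L) • h ^ c - (a : L) • u₁ - (h₁ - h ^ c) = 0 := by
    have hmem1 : (l : L) • h ^ c - (a : L) • u₁ - (h₁ - h ^ c) ∈ V₁ :=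
      Submodule.sub_mem _ (Submodule.sub_mem _ (Submodule.smul_mem _ _ hhc)
        (Submodule.smul_mem _ _ hu₁)) (Submodule.sub_mem _ hh₁m hhc)
    have heq : (l : L) • h ^ c - (a : L) • u₁ - (h₁ - h ^ c) =
        (l : L) • h' ^ c + (a : L) • u₂ - (h₁' - h' ^ c) := by
      have h1 := hWa
      have h2 : (l : L) • (h' ^ c - h ^ c) = (a : L) • ((l : L) • R) := by
        rw [hRdiff, smul_comm]
      rw [hWeq, smul_add, smul_add, ← h2, smul_sub] at h1
      linear_combination -h1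
    have hmem2 : (l : L) • h ^ c - (a : L) • u₁ - (h₁ - h ^ c) ∈ V₂ := by
      rw [heq]
      exact Submodule.sub_mem _ (Submodule.add_mem _ (Submodule.smul_mem _ _ hhc')
        (Submodule.smul_mem _ _ hu₂)) (Submodule.sub_mem _ hh₁m' hhc')
    exact (Submodule.eq_bot_iff _).mp hinter _ ⟨hmem1, hmem2⟩
  have h1 := congrArg (rd₂ M.s₁ M.s₂) (sub_eq_zero.mp hkey)
  rw [rd₂_sub ((hhi.pow c).smul l.2) (hu₁i.smul a.2), rd₂_smul l.2 (hhi.pow c),
    rd₂_smul a.2 hu₁i, hπa, zero_smul, sub_zero, rd₂_pow hhi, hhr, one_pow,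
    rd₂_sub h₁i (hhi.pow c), hh₁, rd₂_mul hui (hfix.integral hhi), hur, hfix.rd_eq hhi,
    rd₂_pow hhi, hhr, one_pow, one_mul, sub_self] at h1
  have hl0 : π l = 0 := by
    have h2 := congrArg Prod.fst h1
    simpa using h2
  rwa [hl0, zero_mul, sub_eq_zero] at hl

/-- **No eigenclasses**: see the module docstring. -/
theorem Twist.rr_ne_bot_of_eigen {p : ℕ} [hp : Fact p.Prime] [CharP k p] (hpL : (p : L) ≠ 0)
    (T : M.Twist p) (hg : rd₂ M.s₁ M.s₂ T.g = 1) (hsplit : SplitsComponents T)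
    {g : SemilinearAut L F} (hfix : M.Fixes g)
    (hlift : ∀ b : k, ∃ c : A, SemilinearAut.baseAut g (c : L) = c ∧ π c = b) {n : ℕ}
    (hnk : (n : k) ≠ 0) (hclass : Divisor.IsPrincipal (g • T.D - n • T.D))
    (hbot' : riemannRochSpace (n • T.D) = ⊥)
    (hz : ∃ (z w : L) (e : A), z ≠ 0 ∧ z ^ (p - 1) = p * (e : L) ∧ π e ≠ 0 ∧
      SemilinearAut.baseAut g z = w * z ∧ ∃ hw : w ∈ A, π ⟨w, hw⟩ ≠ (n : k)) :
    riemannRochSpace T.D ≠ ⊥ := by
  intro hbot
  haveI : CharP Kb p := charP_of_injective_algebraMap (algebraMap k Kb).injective p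
  have hp1 : 1 ≤ p := hp.out.one_lt.le
  set σ := SemilinearAut.baseAut g with hσdef
  obtain ⟨C, hC⟩ : ∃ C : M.Chart, σ C.c = C.c := by
    obtain ⟨b, hb⟩ := ((M.finite_nodes.image fun z => valAt z.1 (M.s₁.rd M.x))).exists_notMem
    obtain ⟨c, hc, rfl⟩ := hlift b
    exact ⟨⟨c, c.2, fun z hz h => hb ⟨z, hz, h⟩⟩, hc⟩
  obtain ⟨N, hsup, hinter, a, h, h', r, ha, hπa, hh, hh', hhi, hhi', hri, hhr, hhr', hdiff, -,
    hrglue, hrn, -, -, -⟩ := T.exists_obstruction hp1 (T.diag_of_rd_one hg) hbot C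
  -- the two expansions
  set y := (a : L) • r with hy
  have hh'y : h' = h + y := by rw [← hdiff, add_sub_cancel]
  set S := ∑ j ∈ Finset.Ioo 0 p, h ^ (j - 1) * y ^ (p - j - 1) * ((p.choose j / p : ℕ) : F)
    with hS
  have hexp : h' ^ p = h ^ p + y ^ p + (p : F) * h * y * S := by
    rw [hh'y, add_pow_prime_eq hp.out]
  have hyi : Integral₂ M.s₁ M.s₂ y := hri.smul a.2
  have hyr : rd₂ M.s₁ M.s₂ y = 0 := by rw [hy, rd₂_smul a.2 hri, hπa, zero_smul]
  have hnat : ∀ j : ℕ, Integral₂ M.s₁ M.s₂ ((j : ℕ) : F) := fun j =>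
    ⟨natCast_mem _ j, natCast_mem _ j⟩
  have hterm : ∀ j, Integral₂ M.s₁ M.s₂
      (h ^ (j - 1) * y ^ (p - j - 1) * ((p.choose j / p : ℕ) : F)) := fun j =>
    ((hhi.pow _).mul (hyi.pow _)).mul (hnat _)
  have hSi : Integral₂ M.s₁ M.s₂ S := Integral₂.sum _ fun j _ => hterm j
  have hSr : rd₂ M.s₁ M.s₂ S = 1 := by
    rw [hS, rd₂_sum _ _ fun j _ => hterm j, Finset.sum_eq_single (p - 1)]
    · rw [rd₂_mul ((hhi.pow _).mul (hyi.pow _)) (hnat _), rd₂_mul (hhi.pow _) (hyi.pow _),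
        rd₂_pow hhi, hhr, one_pow, show p - (p - 1) - 1 = 0 by omega, pow_zero, rd₂_one, one_mul,
        one_mul, Nat.choose_symm_of_eq_add (show p = (p - 1) + 1 by omega), Nat.choose_one_right,
        Nat.div_self hp.out.pos, Nat.cast_one, rd₂_one]
    · intro j hj hne
      rw [Finset.mem_Ioo] at hj
      rw [rd₂_mul ((hhi.pow _).mul (hyi.pow _)) (hnat _), rd₂_mul (hhi.pow _) (hyi.pow _),
        rd₂_pow hyi, hyr, zero_pow (by omega), mul_zero, zero_mul]
    · intro hn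
      exact absurd (Finset.mem_Ioo.mpr ⟨by have := hp.out.two_le; omega, by omega⟩) hn
  have hG : h ^ p * T.g ∈ C.space 0 (p * N) 0 := by
    rw [C.space_zero] at hh ⊢
    rw [zero_add]
    exact T.pow_mul_mem hh
  have hG' : h' ^ p * T.g ∈ C.space 0 0 (p * N) := by
    rw [C.mem_space, zero_add] at hh' ⊢
    rw [zero_add, mul_comm p N, pow_mul, ← mul_assoc, ← mul_pow, mul_comm N p]
    exact T.pow_mul_mem hh'
  have hsup' := hsup (p * N) (Nat.le_mul_of_pos_left _ hp1)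
  have hsplitting : ∀ (c : L) (ρ : F), c ≠ 0 → c • ρ = h' ^ p * T.g - h ^ p * T.g →
      Integral₂ M.s₁ M.s₂ ρ → rd₂ M.s₁ M.s₂ ρ ∈ C.glue (p * N) 0 ⊔ C.glue 0 (p * N) := by
    intro c ρ hc he hρ
    rw [← hsup']
    refine rd₂_mem_redSpace M.π_surjective ?_ hρ
    rw [← inv_smul_smul₀ hc ρ, he]
    exact Submodule.smul_mem _ _
      (Submodule.sub_mem _ (Submodule.mem_sup_right hG') (Submodule.mem_sup_left hG))
  have hpF : algebraMap L F (p : L) = (p : F) := map_natCast _ p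
  rcases div_trichotomy M.π_eq_zero hpL (pow_ne_zero (p - 1) ha) with
    ⟨γ, hγ, hγ0⟩ | ⟨δ, hδ, hδ0⟩ | ⟨γ, hγ, hγ0⟩
  · -- `p` is small: the `p`-th power of the obstruction splits
    have hi : Integral₂ M.s₁ M.s₂ (T.g * (r ^ p + (γ : L) • (h * r * S))) :=
      T.g_int.mul ((hri.pow p).add (((hhi.mul hri).mul hSi).smul γ.2))
    have hmem := hsplitting ((a : L) ^ p) _ (pow_ne_zero _ ha) (by
      rw [hexp, hy]
      simp only [Algebra.smul_def, mul_pow, map_pow]
      rw [← hpF, ← hγ, map_mul, map_pow, show (algebraMap L F (a : L)) ^ p =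
        (algebraMap L F (a : L)) ^ (p - 1) * algebraMap L F (a : L) by
          rw [← pow_succ, Nat.sub_add_cancel hp1]]
      ring) hi
    rw [rd₂_mul T.g_int ((hri.pow p).add (((hhi.mul hri).mul hSi).smul γ.2)), hg, one_mul,
      rd₂_add (hri.pow p) (((hhi.mul hri).mul hSi).smul γ.2),
      rd₂_smul γ.2 ((hhi.mul hri).mul hSi), hγ0, zero_smul, add_zero, rd₂_pow hri] at hmem
    exact hrn (M.mem_split_of_pow_mem C hrglue
      (hsplit C N a h h' r ha hπa hh hh' hhi hhi' hri hhr hhr' hdiff hrglue) hmem)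
  · -- `a ^ (p - 1)` is small: the obstruction splits
    have hi : Integral₂ M.s₁ M.s₂ (T.g * ((δ : L) • r ^ p + h * r * S)) :=
      T.g_int.mul (((hri.pow p).smul δ.2).add ((hhi.mul hri).mul hSi))
    have hmem := hsplitting ((p : L) * a) _ (mul_ne_zero hpL ha) (by
      rw [hexp, hy]
      simp only [Algebra.smul_def, mul_pow, map_mul]
      rw [show (algebraMap L F (a : L)) ^ p =
        algebraMap L F ((δ : L) * (p : L)) * algebraMap L F (a : L) by
          rw [hδ, map_pow, ← pow_succ, Nat.sub_add_cancel hp1], map_mul, hpF]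
      ring) hi
    rw [rd₂_mul T.g_int (((hri.pow p).smul δ.2).add ((hhi.mul hri).mul hSi)), hg, one_mul,
      rd₂_add ((hri.pow p).smul δ.2) ((hhi.mul hri).mul hSi), rd₂_smul δ.2 (hri.pow p), hδ0,
      zero_smul, zero_add, rd₂_mul (hhi.mul hri) hSi, rd₂_mul hhi hri, hhr, one_mul, hSr,
      mul_one] at hmem
    obtain ⟨f₁, hf₁, f₂, hf₂, hsum⟩ := Submodule.mem_sup.mp hmem
    obtain ⟨g1, g2⟩ := C.glue_split hrglue hf₁ hf₂ hsum.symm
    exact hrn (hsum ▸ Submodule.add_mem_sup g1 g2)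
  · -- the critical level: use the automorphism
    obtain ⟨z, w, e, hz0, hze, he0, hσz, hw, hw1⟩ := hz
    obtain ⟨hratio, hratio0⟩ := hfix.ratio_mem ha
    obtain ⟨θ, hθ⟩ := exists_inv_of_red_ne M.π_eq_zero hratio0
    have hσa0 : σ (a : L) ≠ 0 := by simpa using ha
    have hσa : σ (a : L) = (θ : L) * a := by
      have h1 : (θ : L) * ((a : L) / σ a) * σ a = σ a := by rw [hθ, one_mul]
      rwa [mul_assoc, div_mul_cancel₀ _ hσa0, eq_comm] at h1
    have hθn := T.ratio_eq_of_eigen hg hfix hnk hclass hbot' C hC ha hπa hh hh' hhi hhi' hri hhr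
      hhr' hdiff hrglue hrn hσa
    set v := (a : L) / z with hv
    have hvpow : v ^ (p - 1) * ((γ : L) * e) = 1 := by
      rw [hv, div_pow, hze, ← hγ]
      have hγ' : (γ : L) ≠ 0 := fun h0 => hγ0 (by
        rw [show γ = 0 from Subtype.ext h0, map_zero])
      have he' : (e : L) ≠ 0 := fun h0 => he0 (by
        rw [show e = 0 from Subtype.ext h0, map_zero])
      have ha' : (a : L) ^ (p - 1) ≠ 0 := pow_ne_zero _ ha
      field_simp
    have hvA : v ∈ A := by
      refine mem_valuationSubring_of_pow A (d := p - 1) (by have := hp.out.two_le; omega) ?_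
      obtain ⟨b, hb⟩ := exists_inv_of_red_ne M.π_eq_zero (a := γ * e)
        (by rw [map_mul]; exact mul_ne_zero hγ0 he0)
      rw [MulMemClass.coe_mul] at hb
      have : v ^ (p - 1) = b := by
        calc v ^ (p - 1) = v ^ (p - 1) * ((b : L) * ((γ : L) * e)) := by rw [hb, mul_one]
          _ = (v ^ (p - 1) * ((γ : L) * e)) * b := by ring
          _ = b := by rw [hvpow, one_mul]
      rw [this]
      exact b.2
    have hv0 : π ⟨v, hvA⟩ ≠ 0 := by
      intro h0
      have h1 : (⟨v, hvA⟩ : A) ^ (p - 1) * (γ * e) = 1 := Subtype.ext hvpow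
      have := congrArg π h1
      rw [map_mul, map_pow, h0, zero_pow (by have := hp.out.two_le; omega), zero_mul,
        map_one] at this
      exact zero_ne_one this
    obtain ⟨hσv, hσvr⟩ := hfix.base_mem hvA
    have hprod : (⟨σ v, hσv⟩ : A) * ⟨w, hw⟩ = θ * ⟨v, hvA⟩ := Subtype.ext (by
      show σ v * w = (θ : L) * v
      rw [hv, map_div₀, hσa, hσz]
      have hw0 : w ≠ 0 := fun h0 => by simp [h0] at hσz; exact hz0 hσz
      field_simp)
    have := congrArg π hprod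
    rw [map_mul, map_mul, hσvr, hθn, mul_comm (n : k)] at this
    exact hw1 (mul_left_cancel₀ hv0 this)

/-- **No twist eigenclasses of order `p`.** -/
theorem eq_zero_of_natCast_eigen {p : ℕ} [hp : Fact p.Prime] [CharP k p] {x : Pic0 L F}
    (hx : x ∈ M.twistClasses p) (hpx : p • x = 0) {g : SemilinearAut L F} {n : ℕ}
    (hnk : (n : k) ≠ 0) (hgx : g • x = n • x) (hfix : M.Fixes g) (hpL : (p : L) ≠ 0)
    (hlift : ∀ b : k, ∃ c : A, SemilinearAut.baseAut g (c : L) = c ∧ π c = b)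
    (hz : ∃ (z w : L) (e : A), z ≠ 0 ∧ z ^ (p - 1) = p * (e : L) ∧ π e ≠ 0 ∧
      SemilinearAut.baseAut g z = w * z ∧ ∃ hw : w ∈ A, π ⟨w, hw⟩ ≠ (n : k))
    (hsplit : ∀ T : M.Twist p, T.cls = x → rd₂ M.s₁ M.s₂ T.g = 1 → SplitsComponents T) :
    x = 0 := by
  obtain ⟨T, hT, hT1⟩ := exists_twist_prime hx hpx
  by_contra hx0
  have hcop : Nat.Coprime p n := hp.out.coprime_iff_not_dvd.mpr fun hd =>
    hnk ((CharP.cast_eq_zero_iff k p n).mpr hd)
  have hnx : n • x ≠ 0 := fun h => by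
    refine hx0 (AddMonoid.addOrderOf_eq_one_iff.mp (Nat.dvd_one.mp ?_))
    rw [← hcop.gcd_eq_one]
    exact Nat.dvd_gcd (addOrderOf_dvd_of_nsmul_eq_zero hpx) (addOrderOf_dvd_of_nsmul_eq_zero h)
  have hbot' : riemannRochSpace (n • T.D) = ⊥ := by
    by_contra hne
    refine hnx ?_
    rw [← hT, ← T.cls_mulBy n]
    exact (T.mulBy n).cls_eq_zero_of_rr_ne_bot hne
  exact hx0 (hT ▸ T.cls_eq_zero_of_rr_ne_bot (T.rr_ne_bot_of_eigen hpL hT1 (hsplit T hT hT1) hfix
    hlift hnk (T.isPrincipal_of_smul_cls_eq (by rw [hT, hgx])) hbot' hz))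

end MonoDatum

end FermatLib.Igusa.Mono

end
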