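import Fermat.Agent.Extra.S39.Defs
import Fermat.Agent.Extra.S39.TwistEigen
import Fermat.Agent.Igusa.MonoModularDatum
import Fermat.Agent.Igusa.MonoLevelDatum
import Fermat.Agent.Galois.MazurP.LevelMKill
import Fermat.Agent.MLT.Odd.HeckeRepStrict

/-!
# The exit in the supersingular case

If the system does not occur in level `M`, both push-forwards kill the eigenpoint `x = σ x' - x'`,
so it is a twist class with split components; an inertia element fixing `μ_p` fixes `z = ζ - 1` and
cannot negate it.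
-/

set_option autoImplicit false
set_option linter.style.haveILetI false
set_option synthInstance.maxHeartbeats 400000

noncomputable section

open AlgebraicCurve ModularCurve

namespace FermatLib.MazurP.OddP

open FermatLib.Igusa.Mono FermatLib.Modular.Corr

attribute [local instance] neZero_mul' LevelDatum.fieldKb LevelDatum.algebraKb
attribute [local instance 100000] monoLaurentModule monoLaurentSMul

local notation "Qbar" => AlgebraicClosure ℚ
local notation "Γℚ" => (AlgebraicClosure ℚ ≃ₐ[ℚ] AlgebraicClosure ℚ)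

/-- A twist class killed by both push-forwards and negated by an inertia element fixing the `p`-th
roots of unity is trivial. -/
theorem eq_zero_of_neg {p M : ℕ} [Fact p.Prime] [NeZero p] [NeZero M] (hp2 : p ≠ 2)
    {hpM : ¬ p ∣ M} {A : ValuationSubring Qbar} (Z : LevelDatum hpM A) (hA : A.LiesOverPrime p)
    {x : JZero (p * M)} (hx : x ∈ Z.D.twistClasses p) (hpx : p • x = 0)
    (hα : pushAlpha p M x = 0) (hβ : pushBeta p M x = 0) {τ : Γℚ}
    (hτ : τ ∈ A.inertiaSubgroupIn ℚ) (hτζ : ∀ ζ : Qbar, ζ ^ p = 1 → τ ζ = ζ)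
    (hneg : τ • x = -x) : x = 0 := by
  have hp : p.Prime := Fact.out
  haveI := FermatLib.Galois.isAlgClosed_residueField A
  haveI : CharP (IsLocalRing.ResidueField A) p := FermatLib.Igusa.charP_residueField_of_lies A hA
  have hπ : ∀ a : A, IsLocalRing.residue A a = 0 ↔ ¬ IsUnit a := fun a =>
    (IsLocalRing.residue_eq_zero_iff a).trans (IsLocalRing.mem_maximalIdeal a)
  have hcast : ((p - 1 : ℕ) : IsLocalRing.ResidueField A) = -1 := by
    rw [Nat.cast_sub hp.one_le, CharP.cast_eq_zero, Nat.cast_one, zero_sub]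
  obtain ⟨ζ, hζ⟩ := HasEnoughRootsOfUnity.exists_primitiveRoot Qbar p
  have hp0 : (p : Qbar) ≠ 0 := Nat.cast_ne_zero.mpr hp.ne_zero
  have hve : A.valuation ((ζ - 1) ^ (p - 1) / p) = 1 := by
    rw [map_div₀, map_pow, Galois.Flat.valuation_sub_one_pow hp hA hζ,
      div_self ((Valuation.ne_zero_iff _).mpr hp0)]
  refine MonoDatum.eq_zero_of_natCast_eigen hx hpx (n := p - 1)
    (g := arithmeticGalois (modularFunctionFieldFull (p * M)) τ)
    (by rw [hcast]; exact neg_ne_zero.mpr one_ne_zero) ?_ (Z.fixes hτ) hp0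
    (fun b => Galois.Ordinary.exists_fixed_lift (IsLocalRing.residue A) hp hA
      IsLocalRing.residue_surjective hπ hτ b)
    ⟨ζ - 1, 1, ⟨(ζ - 1) ^ (p - 1) / p, (A.valuation_le_one_iff _).mp hve.le⟩,
      sub_ne_zero.mpr (hζ.ne_one hp.one_lt), ?_, ?_, ?_, A.one_mem, ?_⟩ ?_
  · show τ • x = (p - 1) • x
    rw [hneg]
    refine neg_eq_of_add_eq_zero_right ?_
    rw [← succ_nsmul', Nat.sub_add_cancel hp.one_le, hpx]
  · show (ζ - 1) ^ (p - 1) = p * ((ζ - 1) ^ (p - 1) / p)
    field_simp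
  · rw [ne_eq, Galois.Ordinary.red_eq_zero_iff_valuation _ hπ]
    exact hve.not_lt
  · show τ (ζ - 1) = 1 * (ζ - 1)
    rw [map_sub, map_one, hτζ ζ hζ.pow_eq_one, one_mul]
  · rw [hcast, show (⟨1, A.one_mem⟩ : A) = 1 from rfl, map_one]
    intro h
    have h2 : ((2 : ℕ) : IsLocalRing.ResidueField A) = 0 := by push_cast; linear_combination h
    exact hp2 ((Nat.prime_dvd_prime_iff_eq hp Nat.prime_two).mp
      ((CharP.cast_eq_zero_iff _ p 2).mp h2))
  · intro T hT hg
    subst hT
    exact splitsComponents_of_pushes hpM Z.emb Z.x_eq Z.ratios₁ Z.ratios₂ Z.P₁_le_P₂ T hg hα hβ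

/-- **The supersingular exit.** -/
theorem negTwistExit : NegTwistExit := by
  intro p M hp hp2 hpM hM _ S hS a x x' hx hpx' A hA σ τ hσ hτ hsx hτζ hneg
  by_contra hocc
  haveI : Fact p.Prime := ⟨hp⟩
  haveI : NeZero p := ⟨hp.ne_zero⟩
  haveI : NeZero M := ⟨hM.ne'⟩
  obtain ⟨h₁, h₂⟩ := hx.degPush_eq_zero (q := p) hpM hp hS hocc (h₁ := by simp)
    (h₂ := dvd_of_eq (mul_comm M p))
  obtain ⟨D, e₁, e₂, e₃, -⟩ := exists_monoDatum_sheets' (q := p) hpM hA
  let Z : LevelDatum hpM A := LevelDatum.ofSheets (hA := hA) D e₁ e₂ e₃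
  have hpx : p • x = 0 := by rw [← natCast_zsmul]; exact hx.torsion
  have hmem : x ∈ Z.D.twistClasses p := by
    rw [← hsx]
    exact (Z.fixes hσ).smul_sub_mem_twistClasses (j := 1)
      (by rw [pow_one, ← natCast_zsmul]; exact hpx')
  exact hx.ne_zero (eq_zero_of_neg hp2 Z hA hmem hpx
    ((MLT.HeckeRep.pushAlpha_eq_degPush (by simp) x).trans h₁) h₂ hτ hτζ hneg)

end FermatLib.MazurP.OddP

end
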