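import Fermat.Agent.Extra.S39.EllipticPlace
import Fermat.Agent.Galois.MazurP.AwayThree
import Fermat.Agent.Igusa.ReductionHecke
import Fermat.Agent.Igusa.Carayol.InputDelta
import Fermat.Agent.Curve.PoleDegree

/-!
# `T_l` on the places over `j = 0` of `X₀(M)` modulo `3`

In characteristic `3` the reduced unit `Δ(τ)/Δ(3τ)` is `j²`, so the places where its order is
prime to `3` are the places where the order of `j` is.  Above such a place of `X₀(Ml)` lies an
elliptic place of order three in characteristic zero, whose two images in `X₀(M)` coincide; hence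
the correspondence `T_l` is `l + 1` modulo `3` on those places, for every `l`.
-/

set_option autoImplicit false
set_option linter.style.haveILetI false
set_option synthInstance.maxHeartbeats 400000

noncomputable section

open AlgebraicCurve ModularCurve IntermediateField
open FermatLib.Igusa FermatLib.Igusa.Mono FermatLib.Modular.Corr FermatLib.Mazur.Classes

namespace FermatLib.MazurP.OddP

section Char3

variable (k : Type*) [Field k] [CharP k 3]

/-- In characteristic `3` the series `j Δ` is `1`. -/
theorem jqModC_mul_deltaC_three : jqModC k * Igusa.Carayol.deltaC k = 1 := by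
  have h3 : (240 : k) = 0 := by
    have h := (CharP.cast_eq_zero_iff k 3 240).mpr (by norm_num)
    exact_mod_cast h
  have he : eisenstein4.map (Int.castRingHom k) = 1 := by
    ext n
    rw [PowerSeries.coeff_map, eisenstein4, PowerSeries.coeff_mk, PowerSeries.coeff_one]
    split_ifs
    · simp
    · simp [h3]
  rw [jqModC, Igusa.Carayol.deltaC, etaUnitC, mul_mul_mul_comm, HahnSeries.single_mul_single,
    ← map_mul, ← map_mul, jNum, mul_assoc, mul_comm dedekindEtaUnitInv, dedekindEtaUnit_mul_inv,
    neg_add_cancel]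
  simp [map_pow, he]

/-- In characteristic `3` the reduced unit is `j²`. -/
theorem uModC_three_eq_jqModC_sq : uModC k 3 = jqModC k ^ 2 := by
  have h := Igusa.Carayol.uModC_mul_deltaC_pow k (q := 3) Nat.prime_three
  have h' : jqModC k ^ 2 * Igusa.Carayol.deltaC k ^ (3 - 1) = 1 := by
    rw [show (3 : ℕ) - 1 = 2 from rfl, ← mul_pow, jqModC_mul_deltaC_three, one_pow]
  refine mul_right_cancel₀ (fun h0 => ?_) (h.trans h'.symm)
  rw [h0, mul_zero] at h
  exact zero_ne_one h

end Char3

section Polar

variable {L F : Type*} [Field L] [IsAlgClosed L] [Field F] [Algebra L F]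
  [Curve.IsFunctionField L F] {k Fb : Type*} [Field k] [IsAlgClosed k] [Field Fb] [Algebra k Fb]
  [Curve.IsFunctionField k Fb] {r : Place L F → Place k Fb} {g : F} {s : Fb}

/-- A map of places carrying the divisor of `g` to that of `s`, of the same degree, carries the
poles of `g` to those of `s`. -/
theorem mapDomain_polarDivisor_eq (hg : Transcendental L g) (hs : Transcendental k s)
    (hdiv : ∀ Q, Finsupp.mapDomain r (Curve.divOf g) Q = Q.ord s)
    (hn : Module.finrank L⟮g⟯ F = Module.finrank k⟮s⟯ Fb) :
    Finsupp.mapDomain r (Curve.polarDivisor L g) = Curve.polarDivisor k s := by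
  have hP : ∀ v, 0 ≤ Curve.polarDivisor L g v := fun v => by
    rw [Curve.polarDivisor_apply]; exact le_max_right _ _
  refine sub_eq_zero.mp
    (PlaceFunctorial.effective_eq_zero_of_degree Curve.deg_eq_one (fun Q => ?_) ?_)
  · have h1 := PlaceFunctorial.mapDomain_nonneg r hP Q
    have h2 := PlaceFunctorial.mapDomain_nonneg r (D := Curve.polarDivisor L g + Curve.divOf g)
      (fun v => by rw [Finsupp.add_apply, Curve.polarDivisor_apply, Curve.divOf_apply]; omega) Q
    rw [Finsupp.mapDomain_add, Finsupp.add_apply, hdiv] at h2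
    rw [Finsupp.sub_apply, Curve.polarDivisor_apply]
    omega
  · rw [map_sub, PlaceFunctorial.degree_mapDomain Curve.deg_eq_one Curve.deg_eq_one,
      Curve.degree_polarDivisor hg, Curve.degree_polarDivisor hs, hn, sub_self]

omit [IsAlgClosed L] [IsAlgClosed k] in
theorem ord_nonneg_of_reduce
    (hpol : Finsupp.mapDomain r (Curve.polarDivisor L g) = Curve.polarDivisor k s)
    {V : Place L F} (hV : 0 ≤ (r V).ord s) : 0 ≤ V.ord g := by
  have h := PlaceFunctorial.apply_le_mapDomain r (D := Curve.polarDivisor L g)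
    (fun v => by rw [Curve.polarDivisor_apply]; exact le_max_right _ _) V
  rw [hpol, Curve.polarDivisor_apply, Curve.polarDivisor_apply] at h
  omega

omit [IsAlgClosed L] [IsAlgClosed k] in
/-- A regular place with order of `s` prime to `3` is the reduction of a zero of `g` with the same
property. -/
theorem exists_reduce_not_three_dvd
    (hdiv : ∀ Q, Finsupp.mapDomain r (Curve.divOf g) Q = Q.ord s)
    (hpol : Finsupp.mapDomain r (Curve.polarDivisor L g) = Curve.polarDivisor k s)
    {Q : Place k Fb} (hQ : 0 ≤ Q.ord s) (h3 : ¬ (3 : ℤ) ∣ Q.ord s) :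
    ∃ V, r V = Q ∧ 0 < V.ord g ∧ ¬ (3 : ℤ) ∣ V.ord g := by
  classical
  by_contra hc
  push Not at hc
  refine h3 ?_
  rw [← hdiv, Finsupp.mapDomain, Finsupp.sum_apply, Finsupp.sum]
  refine Finset.dvd_sum fun V _ => ?_
  rw [Finsupp.single_apply]
  split_ifs with hV
  · rw [Curve.divOf_apply]
    rcases lt_or_eq_of_le (ord_nonneg_of_reduce hpol (hV ▸ hQ : 0 ≤ (r V).ord s)) with h | h
    · exact hc V hV h
    · exact h ▸ dvd_zero _
  · exact dvd_zero _

variable {F' Fb' : Type*} [Field F'] [Algebra L F'] [Curve.IsFunctionField L F'] [Field Fb']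
  [Algebra k Fb'] [Curve.IsFunctionField k Fb'] {r' : Place L F' → Place k Fb'}
  {φ : F →ₐ[L] F'} {φb : Fb →ₐ[k] Fb'}

/-- Reduction commutes with restriction at a place regular for `g`. -/
theorem restrictAlong_reduce_of_regular (hφ : φ.toRingHom.IsIntegral)
    (hφb : φb.toRingHom.IsIntegral) (hfin : FiniteAlong L φ) (hfinb : FiniteAlong k φb)
    (hp : PlaceFunctorial.CompatOnPrincipal hφ hφb r r')
    (hpol : Finsupp.mapDomain r (Curve.polarDivisor L g) = Curve.polarDivisor k s)
    (hn : 0 < Divisor.degree (Curve.polarDivisor L g)) (W : Place L F')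
    (hw : 0 ≤ ((r' W).restrictAlong φb hφb).ord s)
    (hV : ∀ V, r' V = r' W → 0 ≤ (V.restrictAlong φ hφ).ord g) :
    (r' W).restrictAlong φb hφb = r (W.restrictAlong φ hφ) := by
  classical
  set P := W.restrictAlong φ hφ with hP
  set n := Divisor.degree (Curve.polarDivisor L g)
  have h := DFunLike.congr_fun (PlaceFunctorial.mapDomain_pullbackAlong_degZero hφ hφb hfin hfinb hp
    (D := Finsupp.single P n - Curve.polarDivisor L g)
    (by rw [map_sub, Divisor.degree_single, Curve.deg_eq_one, Nat.cast_one, mul_one, sub_self]))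
    (r' W)
  rw [← Finsupp.mapDomain.addMonoidHom_apply, ← Finsupp.mapDomain.addMonoidHom_apply, map_sub,
    map_sub, map_sub, map_sub, Finsupp.mapDomain.addMonoidHom_apply,
    Finsupp.mapDomain.addMonoidHom_apply, Finsupp.mapDomain.addMonoidHom_apply,
    Finsupp.mapDomain.addMonoidHom_apply, Finsupp.mapDomain_single, hpol, Finsupp.sub_apply,
    Finsupp.sub_apply, Divisor.pullbackAlong_apply φb, Divisor.pullbackAlong_apply φb,
    Curve.polarDivisor_apply, max_eq_right (by omega : -((r' W).restrictAlong φb hφb).ord s ≤ 0),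
    mul_zero, sub_zero] at h
  have h0 : Finsupp.mapDomain r' (Divisor.pullbackAlong φ hφ (Curve.polarDivisor L g)) (r' W) = 0 := by
    rw [Finsupp.mapDomain, Finsupp.sum_apply, Finsupp.sum]
    refine Finset.sum_eq_zero fun V _ => ?_
    rw [Finsupp.single_apply]
    split_ifs with e
    · have := hV V e
      rw [Divisor.pullbackAlong_apply, Curve.polarDivisor_apply, max_eq_right (by omega), mul_zero]
    · rfl
  rw [h0, sub_zero] at h
  have hle := PlaceFunctorial.apply_le_mapDomain r'
    (D := Divisor.pullbackAlong φ hφ (Finsupp.single P n)) (fun V => by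
      rw [Divisor.pullbackAlong_apply, Finsupp.single_apply]
      split_ifs
      · exact mul_nonneg (Int.natCast_nonneg _) hn.le
      · simp) W
  rw [h, Divisor.pullbackAlong_apply, ← hP, Finsupp.single_eq_same] at hle
  by_contra hne
  rw [Finsupp.single_eq_of_ne hne, mul_zero] at hle
  exact absurd hle (not_le.mpr (mul_pos
    (Int.natCast_pos.mpr (ramificationIndexAlong_pos hφ W)) hn))

end Polar

section PushPull

variable {K F F' : Type*} [Field K] [IsAlgClosed K] [Field F] [Algebra K F] [Field F']
  [Algebra K F'] [Curve.IsFunctionField K F] [Curve.IsFunctionField K F'] {φ : F →ₐ[K] F'}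

/-- Push-forward after pull back is multiplication by the degree. -/
theorem pushforwardAlong_pullbackAlong_eq (hfin : FiniteAlong K φ) (hφ : φ.toRingHom.IsIntegral)
    (E : Divisor K F) :
    Divisor.pushforwardAlong φ hφ (Divisor.pullbackAlong φ hφ E) =
      (finrankAlong K φ : ℤ) • E := by
  classical
  refine DFunLike.congr_fun (Finsupp.addHom_ext (f := (Divisor.pushforwardAlong φ hφ).comp
    (Divisor.pullbackAlong φ hφ)) (g := (finrankAlong K φ : ℤ) • AddMonoidHom.id _)
    fun u n => ?_) E
  set D := Divisor.pushforwardAlong φ hφ (Divisor.pullbackAlong φ hφ (Finsupp.single u n))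
  have hD : D = Finsupp.single u (D u) := Finsupp.ext fun v => by
    rcases eq_or_ne v u with rfl | hne
    · rw [Finsupp.single_eq_same]
    rw [Finsupp.single_eq_of_ne hne]
    refine pushforwardAlong_apply_eq_zero hφ fun w hw => ?_
    rw [Divisor.pullbackAlong_apply, hw, Finsupp.single_eq_of_ne hne, mul_zero]
  have hdeg := congrArg Divisor.degree hD
  simp only [D, Divisor.degree_pushforwardAlong,
    Divisor.degree_pullbackAlong φ hφ (Curve.fundamentalIdentityAlong φ hfin hφ),
    Divisor.degree_single, Curve.deg_eq_one, Nat.cast_one, mul_one] at hdeg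
  show D = (finrankAlong K φ : ℤ) • Finsupp.single u n
  rw [hD, Finsupp.smul_single, smul_eq_mul, hdeg]

end PushPull

attribute [local instance] neZero_mul'
attribute [local instance 100000] monoLaurentModule monoLaurentSMul

local notation "Qbar" => AlgebraicClosure ℚ

variable {M l : ℕ} [NeZero M] [Fact l.Prime] [NeZero l] (hM : ¬ 3 ∣ M) (hl3 : ¬ 3 ∣ l)
  {A : ValuationSubring (AlgebraicClosure ℚ)} (hA : A.LiesOverPrime 3)

local notation "kA" => IsLocalRing.ResidueField A

include hA in
omit [Fact l.Prime] [NeZero l] in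
/-- The two facts on the reduction of the divisor of `j` at a level prime to `3`. -/
theorem mapDomain_divOf_jElem {N : ℕ} [NeZero N] (hN : ¬ 3 ∣ N)
    [Curve.IsFunctionField Qbar (modularFunctionFieldBar N)]
    [Curve.IsFunctionField kA (modularFunctionFieldFullC kA N)] :
    (∀ Q, Finsupp.mapDomain (placeReductionModL (reductionInputsModL N hN A hA))
        (Curve.divOf (Modular.jElem Qbar N)) Q = Q.ord (jBarK N A)) ∧
      Finsupp.mapDomain (placeReductionModL (reductionInputsModL N hN A hA))
        (Curve.polarDivisor Qbar (Modular.jElem Qbar N)) = Curve.polarDivisor kA (jBarK N A) ∧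
      0 < Divisor.degree (Curve.polarDivisor Qbar (Modular.jElem Qbar N)) := by
  haveI := isAlgClosed_residueField A
  have hd := degreeInput_of_ne_zero A (IsLocalRing.residue A) N (monoLevel_natCast_ne_zero hN hA)
  have hg : genericFun A (IsLocalRing.residue A) N (jInt A (IsLocalRing.residue A) N) =
      Modular.jElem Qbar N :=
    Subtype.ext ((coe_genericFun_jInt A (IsLocalRing.residue A) N).trans (jqModC_eq_coeffEmb Qbar))
  have hs : specialFun A (IsLocalRing.residue A) N (jInt A (IsLocalRing.residue A) N) = jBarK N A :=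
    Subtype.ext (coe_specialFun_jInt A (IsLocalRing.residue A) N)
  have htg := transcendental_genericFun_jInt A (IsLocalRing.residue A) N
  have hts := transcendental_specialFun_jInt A (IsLocalRing.residue A) N
  rw [← hg, ← hs]
  have hdiv : ∀ Q, Finsupp.mapDomain (placeReductionModL (reductionInputsModL N hN A hA))
      (Curve.divOf (genericFun A (IsLocalRing.residue A) N (jInt A (IsLocalRing.residue A) N))) Q =
      Q.ord (specialFun A (IsLocalRing.residue A) N (jInt A (IsLocalRing.residue A) N)) :=
    (isPlaceReductionModL_placeReductionModL (reductionInputsModL N hN A hA)).2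
      (jInt A (IsLocalRing.residue A) N : LaurentSeries A)
      (jInt A (IsLocalRing.residue A) N).2.1 (jInt A (IsLocalRing.residue A) N).2.2
      (fun h0 => hts (by
        rw [show specialFun A (IsLocalRing.residue A) N (jInt A (IsLocalRing.residue A) N) = 0 from
          Subtype.ext h0]
        exact isAlgebraic_zero))
      _ (fun P => Curve.divOf_apply _ P)
  refine ⟨hdiv, mapDomain_polarDivisor_eq htg hts hdiv
    (hd.finrank_generic.trans hd.finrank_special.symm), ?_⟩
  rw [Curve.degree_polarDivisor htg, Int.natCast_pos]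
  exact hd.finrank_generic.trans_gt hd.pos

set_option maxHeartbeats 1000000 in
include hM hl3 hA in
/-- A place of `X₀(Ml)` modulo `3` where the order of `j` is prime to `3` has the same image under
both maps. -/
theorem restrictAlong_eq_of_not_three_dvd
    (w : Place kA (modularFunctionFieldFullC kA (M * l))) (hw : 0 ≤ w.ord (jBarK (M * l) A))
    (h3 : ¬ (3 : ℤ) ∣ w.ord (jBarK (M * l) A)) :
    w.restrictAlong (fullAlphaC kA M l)
        (finiteAlong_isIntegral (finite_fullAlphaC A hA M l hM hl3)) =
      w.restrictAlong (fullBetaC kA M l)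
        (finiteAlong_isIntegral (finite_fullBetaC A hA M l hM hl3)) := by
  have hMl := not_dvd_mul_level M l hM hl3
  haveI := isAlgClosed_residueField A
  haveI := isFunctionFieldOne_fieldBar Qbar M
  haveI := isFunctionFieldOne_fieldBar Qbar (M * l)
  haveI := isFunctionField_special A hA M hM
  haveI := isFunctionField_special_mul A hA M l hM hl3
  set r := placeReductionModL (reductionInputsModL M hM A hA)
  set r' := placeReductionModL (reductionInputsModL (M * l) hMl A hA)
  have hr := isPlaceReductionModL_placeReductionModL (reductionInputsModL M hM A hA)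
  have hr' := isPlaceReductionModL_placeReductionModL (reductionInputsModL (M * l) hMl A hA)
  obtain ⟨-, hpolM, hn⟩ := mapDomain_divOf_jElem hA hM
  obtain ⟨hdiv, hpol, -⟩ := mapDomain_divOf_jElem hA hMl
  obtain ⟨W, rfl, hW, hW3⟩ := exists_reduce_not_three_dvd hdiv hpol hw h3
  have hiα : (barIncl Qbar (dvd_mul_right M l)).toRingHom.IsIntegral :=
    isIntegral_barIncl (levelFacts Qbar) _
  have hiβ : (barBeta Qbar l (dvd_refl (M * l))).toRingHom.IsIntegral :=
    isIntegral_barBeta (levelFacts Qbar) l _
  have hgen := (reductionInputsModL M hM A hA).choose_spec.2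
  -- `j` is regular above `r' W` on both sides
  have hαg : barIncl Qbar (dvd_mul_right M l) (Modular.jElem Qbar M) = Modular.jElem Qbar (M * l) :=
    Subtype.ext (coe_barIncl _ _)
  have hsα : fullAlphaC kA M l (jBarK M A) = jBarK (M * l) A := Subtype.ext (coe_fullAlphaC kA M l _)
  have hpole := poles_fullAlphaC_iff_fullBetaC (k := kA) (M := M) (l := l) (x := jBarK M A) rfl
    (r' W)
  rw [hsα] at hpole
  have hVj : ∀ V, r' V = r' W → 0 ≤ V.ord (Modular.jElem Qbar (M * l)) := fun V e =>
    ord_nonneg_of_reduce hpol (show 0 ≤ (r' V).ord _ by rw [e]; exact hw)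
  have hmod : (FermatLib.Modular.modularPolynomialData l).Φ.eval₂
      (evalInt (Modular.jElem Qbar (M * l)))
      (barBeta Qbar l (dvd_refl (M * l)) (Modular.jElem Qbar M)) = 0 := by
    refine (fieldBar Qbar (M * l)).val.toRingHom.injective ?_
    rw [map_eval₂_evalInt, map_zero]
    show (FermatLib.Modular.modularPolynomialData l).Φ.eval₂
      (evalInt (Modular.jElem Qbar (M * l) : LaurentSeries Qbar))
      (barBeta Qbar l (dvd_refl (M * l)) (Modular.jElem Qbar M) : LaurentSeries Qbar) = 0
    rw [coe_barBeta, show (Modular.jElem Qbar M : LaurentSeries Qbar) = jqModC Qbar from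
      (jqModC_eq_coeffEmb Qbar).symm,
      show (Modular.jElem Qbar (M * l) : LaurentSeries Qbar) = jqModC Qbar from
      (jqModC_eq_coeffEmb Qbar).symm]
    exact (modularEquation_series l Qbar).1
  have hVβ : ∀ V, r' V = r' W →
      0 ≤ V.ord (barBeta Qbar l (dvd_refl (M * l)) (Modular.jElem Qbar M)) := fun V e =>
    ord_nonneg_of_modularEquation l V hmod (hVj V e)
  have hreg : ∀ {E : Type} [Field E] [Algebra Qbar E] {F : Type} [Field F] [Algebra Qbar F]
      (φ : F →ₐ[Qbar] E) (hφ : φ.toRingHom.IsIntegral) (f : F) (V : Place Qbar E),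
      0 ≤ V.ord (φ f) → 0 ≤ (V.restrictAlong φ hφ).ord f := fun φ hφ f V h => by
    rw [Place.ord_restrictAlong φ hφ] at h
    exact nonneg_of_mul_nonneg_right h (Int.natCast_pos.mpr (ramificationIndexAlong_pos hφ V))
  have hregk : ∀ (φ : modularFunctionFieldFullC kA M →ₐ[kA] modularFunctionFieldFullC kA (M * l))
      (hφ : φ.toRingHom.IsIntegral), 0 ≤ (r' W).ord (φ (jBarK M A)) →
      0 ≤ ((r' W).restrictAlong φ hφ).ord (jBarK M A) := fun φ hφ h => by
    rw [Place.ord_restrictAlong φ hφ] at h
    exact nonneg_of_mul_nonneg_right h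
      (Int.natCast_pos.mpr (ramificationIndexAlong_pos hφ (r' W)))
  have eα := restrictAlong_reduce_of_regular hiα
    (finiteAlong_isIntegral (finite_fullAlphaC A hA M l hM hl3)) (Curve.finiteAlong _)
    (finite_fullAlphaC A hA M l hM hl3)
    (compatOnPrincipal_of_lift hr hr' hgen hiα _ id (fun y hy => coe_barIncl _ _)
      (fun y hy => coe_fullAlphaC kA M l _)) hpolM hn W
    (hregk _ _ (hsα.symm ▸ hw)) fun V e => hreg _ hiα _ V (hαg.symm ▸ hVj V e)
  have eβ := restrictAlong_reduce_of_regular hiβ
    (finiteAlong_isIntegral (finite_fullBetaC A hA M l hM hl3)) (Curve.finiteAlong _)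
    (finite_fullBetaC A hA M l hM hl3)
    (compatOnPrincipal_of_lift hr hr' hgen hiβ _ (qExpand A l)
      (fun y hy => by rw [coe_barBeta, coeffMap_qExpand])
      (fun y hy => by rw [coe_fullBetaC, coeffMap_qExpand])) hpolM hn W
    (hregk _ _ (hpole.mp hw)) fun V e => hreg _ hiβ _ V (hVβ V e)
  rw [eα, eβ, restrictAlong_barIncl_eq_barBeta W hW hW3 hiα hiβ]

set_option maxHeartbeats 1000000 in
include hM hl3 hA in
/-- **`T_l` is `l + 1` modulo `3`** at the regular places, on divisors divisible by `3` where the
order of `j` is. -/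
theorem three_dvd_heckeDivC_sub (hlM : ¬ l ∣ M)
    {E : Divisor kA (modularFunctionFieldFullC kA M)}
    (hE : ∀ v, 0 ≤ v.ord (jBarK M A) → (3 : ℤ) ∣ v.ord (jBarK M A) → (3 : ℤ) ∣ E v)
    {v : Place kA (modularFunctionFieldFullC kA M)} (hv : 0 ≤ v.ord (jBarK M A)) :
    (3 : ℤ) ∣ heckeDivC A hA M l hM hl3 E v - ((l : ℤ) + 1) * E v := by
  have hMl := not_dvd_mul_level M l hM hl3
  haveI := isAlgClosed_residueField A
  haveI := isFunctionField_special A hA M hM
  haveI := isFunctionField_special_mul A hA M l hM hl3
  haveI := monoResidue_charP (q := 3) hA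
  have hfa := finite_fullAlphaC A hA M l hM hl3
  have hia := finiteAlong_isIntegral hfa
  have hib := finiteAlong_isIntegral (finite_fullBetaC A hA M l hM hl3)
  have hfr : (finrankAlong kA (fullAlphaC kA M l) : ℤ) = (l : ℤ) + 1 := by
    have h := finrankAlong_fullAlphaC_mul (natCast_mul_ne_zero A hA M l hM hl3)
    rw [dedekindPsi_mul_prime M Fact.out, if_neg hlM] at h
    exact_mod_cast Nat.eq_of_mul_eq_mul_right (dedekindPsi_pos' M) h
  rw [show heckeDivC A hA M l hM hl3 E v =
      Divisor.pushforwardAlong (fullAlphaC kA M l) hia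
        (Divisor.pullbackAlong (fullBetaC kA M l) hib E) v from rfl,
    ← hfr]
  change (3 : ℤ) ∣ _ - ((finrankAlong kA (fullAlphaC kA M l) : ℤ) • E) v
  rw [← pushforwardAlong_pullbackAlong_eq hfa hia, ← Finsupp.sub_apply, ← map_sub]
  refine dvd_pushforwardAlong hia 3 fun w hw => ?_
  rw [Finsupp.sub_apply, Divisor.pullbackAlong_apply, Divisor.pullbackAlong_apply, hw]
  set v' := w.restrictAlong (fullBetaC kA M l) hib with hv'
  have hsα : fullAlphaC kA M l (jBarK M A) = jBarK (M * l) A := Subtype.ext (coe_fullAlphaC kA M l _)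
  set x := jBarK (M * l) A with hx
  set y := fullBetaC kA M l (jBarK M A) with hy
  have hwα : w.ord x = w.ramificationIndexAlong (fullAlphaC kA M l) * v.ord (jBarK M A) := by
    rw [← hw, ← Place.ord_restrictAlong _ hia, hsα]
  have hwβ : w.ord y = w.ramificationIndexAlong (fullBetaC kA M l) * v'.ord (jBarK M A) :=
    Place.ord_restrictAlong _ hib _ _
  have hw0 : 0 ≤ w.ord x := hwα ▸ mul_nonneg (Int.natCast_nonneg _) hv
  have heq : w.ord y = w.ord x := by
    have h := ord_eq_of_series hMl hA (dvd_mul_left l M) (x := x ^ 2) (y := y ^ 2)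
      (by rw [IntermediateField.coe_pow, uModC_three_eq_jqModC_sq]; rfl)
      (by rw [IntermediateField.coe_pow, uModC_three_eq_jqModC_sq, map_pow]; rfl) w hw0
    rw [ord_pow, ord_pow] at h
    omega
  have hv0 : 0 ≤ v'.ord (jBarK M A) :=
    nonneg_of_mul_nonneg_right (hwβ ▸ heq.symm ▸ hw0)
      (Int.natCast_pos.mpr (ramificationIndexAlong_pos hib w))
  by_cases h3 : (3 : ℤ) ∣ w.ord x
  · refine dvd_sub ?_ ?_
    · rcases Int.prime_three.dvd_or_dvd (hwβ ▸ heq.symm ▸ h3) with h | h
      · exact h.mul_right _
      · exact (hE v' hv0 h).mul_left _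
    · rcases Int.prime_three.dvd_or_dvd (hwα ▸ h3) with h | h
      · exact h.mul_right _
      · exact (hE v hv h).mul_left _
  · have hvv : v' = v := (restrictAlong_eq_of_not_three_dvd hM hl3 hA w hw0 h3).symm.trans hw
    have hne : v.ord (jBarK M A) ≠ 0 := fun h0 => h3 (by rw [hwα, h0, mul_zero]; exact dvd_zero _)
    rw [hvv] at hwβ ⊢
    rw [show (w.ramificationIndexAlong (fullBetaC kA M l) : ℤ) =
      w.ramificationIndexAlong (fullAlphaC kA M l) from
        mul_right_cancel₀ hne (hwβ.symm.trans (heq.trans hwα)), sub_self]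
    exact dvd_zero _

end FermatLib.MazurP.OddP

end
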