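import Fermat.Agent.Extra.S39.Defs
import Fermat.Agent.Extra.S39.NodesThree
import Fermat.Agent.Galois.MazurP.AtP

/-!
# The Mazur principle at every odd `p`
-/

set_option autoImplicit false
set_option linter.style.haveILetI false
set_option synthInstance.maxHeartbeats 400000

noncomputable section

open AlgebraicCurve ModularCurve
open FermatLib.Igusa FermatLib.Igusa.Mono FermatLib.Modular.Corr

namespace FermatLib.MazurP.OddP

attribute [local instance] neZero_mul'
attribute [local instance 100000] monoLaurentModule monoLaurentSMul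

local notation "Qbar" => AlgebraicClosure ℚ

variable {M : ℕ} [NeZero M] (hM : ¬ 3 ∣ M) {A : ValuationSubring (AlgebraicClosure ℚ)}
  (hA : A.LiesOverPrime 3)

local notation "kA" => IsLocalRing.ResidueField A

/-- On the datum of level `3M` the operators `T_ℓ - b` are their Eisenstein values modulo `3` at
the nodes where `ū` has order prime to `3`. -/
theorem exists_sheetOp_eisModThree [NeZero (3 * M)]
    (D : MazurDatum (IsLocalRing.residue A) (modularFunctionFieldBar (3 * M))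
      (modularFunctionFieldFullC kA M) 3)
    (hs₁ : D.s₁ = monoSheetInf hM hA) (hs₂ : D.s₂ = monoSheetZero hM hA)
    (hx : D.x = jFq 3 M) (hu : D.u = deltaUnit Qbar (dvd_mul_right 3 M))
    (ℓ : Nat.Primes) (hℓ : ¬ (ℓ : ℕ) ∣ 3 * M) (b : ℤ) :
    ∃ O : D.SheetOp, O.eis = (ℓ : ℤ) + 1 - b ∧ O.EisModThree ∧
      ∀ (T : D.TorsData 3) (x : JZero (3 * M)),
        D.IsClassOf T x → heckeOperatorBar (3 * M) ℓ x = b • x → O.Kills T := by
  haveI : Fact (ℓ : ℕ).Prime := ⟨ℓ.2⟩
  haveI : NeZero (ℓ : ℕ) := ⟨ℓ.2.ne_zero⟩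
  haveI := monoResidue_charP (q := 3) hA
  have hl3 : ¬ 3 ∣ (ℓ : ℕ) := fun h =>
    hℓ (((Nat.prime_dvd_prime_iff_eq Nat.prime_three ℓ.2).mp h) ▸ dvd_mul_right 3 M)
  obtain ⟨O, ho, hdv, hk⟩ := exists_sheetOp_hecke hM hA D hs₁ hs₂ hx hu ℓ hℓ hl3 b
  have hub : D.ub₁ = jBarK M A ^ 2 := by
    refine Subtype.ext ?_
    show ((D.s₁.rd D.u : modularFunctionFieldFullC kA M) : LaurentSeries kA) = _
    rw [hs₁, hu, coe_rd_deltaUnit hA hM, uModC_three_eq_jqModC_sq]
    rfl
  have hP : ∀ v, D.P₁ v = 0 ↔ 0 ≤ v.ord (jBarK M A) := fun v => by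
    rw [D.P₁_apply, hs₁, hx, (monoSheetInf_jFq hM hA).2]
    omega
  refine ⟨O, ho, fun E hE v hv => ?_, fun T x ⟨hT, hc⟩ hb => hk T hT (hc ▸ hb)⟩
  have h := three_dvd_heckeDivC_sub hM hl3 hA (l := ℓ) (fun h => hℓ (h.mul_left 3)) (E := E)
    (fun w hw h3 => hE w ((hP w).mpr hw) (by
      rw [D.h₁_apply, if_pos ((hP w).mpr hw), hub, ord_pow]
      exact h3.mul_left _)) ((hP v).mp hv)
  rw [hdv, ho, Finsupp.sub_apply, Finsupp.smul_apply, smul_eq_mul]
  convert h using 1
  ring

/-- **The Mazur principle at `p` on torsion points, for every odd `p`.** -/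
theorem principleAtPOdd : PrincipleAtPOdd := by
  intro p M hp hp2 hpM hM _ S hS a x hx hE A hA hP
  rcases Nat.lt_or_ge p 5 with hlt | h5
  swap
  · exact principleAtP p M hp h5 hpM hM S hS a x hx hE A hA hP
  obtain rfl : p = 3 := by
    have := hp.two_le
    interval_cases p
    · exact absurd rfl hp2
    · rfl
    · exact absurd hp (by decide)
  haveI : NeZero M := ⟨hM.ne'⟩
  haveI : IsAlgClosed (IsLocalRing.ResidueField A) := Galois.isAlgClosed_residueField A
  haveI := monoResidue_charP (q := 3) hA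
  obtain ⟨MD, h₁, h₂, hxj⟩ := modularDatumInput 3 M hpM A hA
  set D := mazurDatumX0 hpM hA MD h₁ h₂ hxj
  have hD : PrincipleData D := principleData_mazurDatumX0 hpM hA MD h₁ h₂ hxj
  exact hD.occursModP (D.principalTame hp2) (D.principalWild hp2) hp hA
    (fun ℓ hℓ b => (exists_sheetOp_eisModThree hpM hA D h₁ h₂ hxj rfl ℓ hℓ b).imp
      fun O hO => ⟨hO.1, fun _ => hO.2.1, hO.2.2⟩) hS hx hE hP

end FermatLib.MazurP.OddP

end
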